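/-
# RIBET row 38, WALL-p, package I6, leaf COVER-NODE (helper652), part 2: local rings `B_𝔫 ⊆ F`

Mathlib + `A2/H348/SubLoc` (Mathlib-only).  `B ⊆ F` a subalgebra of a field, `𝔫` a prime of `B`,
`locAt B 𝔫 ⊆ F` the localisation.  Elementwise description of units and of the maximal ideal,
`IsLocalRing`, maximal ideals over the closed point of a local ring, residue representatives when
the residue field of the base is algebraically closed.
-/
import Fermat.Agent.A2.H348.SubLoc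

set_option autoImplicit false
set_option linter.style.haveILetI false

namespace Fermat.Agent.Ribet.H652

open Fermat.Agent.A2.H348 IsLocalRing

section LocAt

variable {A F : Type*} [CommRing A] [Field F] [Algebra A F]
variable (B : Subalgebra A F) (𝔫 : Ideal B) [h𝔫 : 𝔫.IsPrime]

/-- An element `a / s` with `a, s ∉ 𝔫` is a unit of `B_𝔫`. -/
theorem isUnit_locAt_of652 (z : locAt B 𝔫) (a s : B) (ha : a ∉ 𝔫)
    (hz : (s : F) * (z : F) = (a : F)) : IsUnit z := by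
  have ha0 : (a : F) ≠ 0 := coe_ne_zero_of_notMem 𝔫 ha
  have hz0 : (z : F) ≠ 0 := by
    intro h
    rw [h, mul_zero] at hz
    exact ha0 hz.symm
  have hinv : ((z : F))⁻¹ ∈ locAt B 𝔫 := by
    refine ⟨a, ha, ?_⟩
    have : (a : F) * ((z : F))⁻¹ = (s : F) := by
      rw [← hz, mul_assoc, mul_inv_cancel₀ hz0, mul_one]
    rw [this]
    exact s.2
  refine IsUnit.of_mul_eq_one (⟨((z : F))⁻¹, hinv⟩ : locAt B 𝔫) ?_
  apply Subtype.ext
  show (z : F) * ((z : F))⁻¹ = 1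
  exact mul_inv_cancel₀ hz0

/-- An element `a / s` with `a ∈ 𝔫`, `s ∉ 𝔫` is not a unit of `B_𝔫`. -/
theorem not_isUnit_locAt_of652 (z : locAt B 𝔫) (a s : B) (ha : a ∈ 𝔫) (hs : s ∉ 𝔫)
    (hz : (s : F) * (z : F) = (a : F)) : ¬ IsUnit z := by
  intro hu
  obtain ⟨w, hw⟩ := hu.exists_right_inv
  obtain ⟨t, ht, htw⟩ := w.2
  have hw' : (z : F) * (w : F) = 1 := congrArg (fun u : locAt B 𝔫 => (u : F)) hw
  have h1 : s * t = a * ⟨(t : F) * (w : F), htw⟩ := by
    apply Subtype.ext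
    show (s : F) * (t : F) = (a : F) * ((t : F) * (w : F))
    rw [← hz]
    calc (s : F) * (t : F) = (s : F) * (t : F) * ((z : F) * (w : F)) := by rw [hw', mul_one]
      _ = (s : F) * (z : F) * ((t : F) * (w : F)) := by ring
  have h2 : s * t ∈ 𝔫 := by
    rw [h1]
    exact 𝔫.mul_mem_right _ ha
  exact (h𝔫.mem_or_mem h2).elim hs ht

/-- Nonunits of `B_𝔫` are the elements `a / s`, `a ∈ 𝔫`, `s ∉ 𝔫`. -/
theorem not_isUnit_locAt_iff652 (z : locAt B 𝔫) :
    ¬ IsUnit z ↔ ∃ a s : B, a ∈ 𝔫 ∧ s ∉ 𝔫 ∧ (s : F) * (z : F) = (a : F) := by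
  constructor
  · intro hz
    obtain ⟨s, hs, hsz⟩ := z.2
    refine ⟨⟨(s : F) * (z : F), hsz⟩, s, ?_, hs, rfl⟩
    by_contra ha
    exact hz (isUnit_locAt_of652 B 𝔫 z ⟨(s : F) * (z : F), hsz⟩ s ha rfl)
  · rintro ⟨a, s, ha, hs, hz⟩
    exact not_isUnit_locAt_of652 B 𝔫 z a s ha hs hz

/-- `B_𝔫` is a local ring. -/
theorem isLocalRing_locAt652 : IsLocalRing (locAt B 𝔫) := by
  refine IsLocalRing.of_nonunits_add ?_
  intro z w hz hw
  obtain ⟨a, s, ha, hs, hsz⟩ := (not_isUnit_locAt_iff652 B 𝔫 z).1 hz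
  obtain ⟨b, t, hb, ht, htw⟩ := (not_isUnit_locAt_iff652 B 𝔫 w).1 hw
  refine (not_isUnit_locAt_iff652 B 𝔫 (z + w)).2 ⟨t * a + s * b, s * t, ?_, ?_, ?_⟩
  · exact 𝔫.add_mem (𝔫.mul_mem_left _ ha) (𝔫.mul_mem_left _ hb)
  · exact fun h => (h𝔫.mem_or_mem h).elim hs ht
  · show ((s : F) * (t : F)) * ((z : F) + (w : F)) = (t : F) * (a : F) + (s : F) * (b : F)
    rw [← hsz, ← htw]
    ring

/-- Membership in the maximal ideal of `B_𝔫`. -/
theorem mem_maximalIdeal_locAt_iff652 (hloc : IsLocalRing (locAt B 𝔫)) (z : locAt B 𝔫) :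
    z ∈ maximalIdeal (locAt B 𝔫) ↔
      ∃ a s : B, a ∈ 𝔫 ∧ s ∉ 𝔫 ∧ (s : F) * (z : F) = (a : F) := by
  rw [IsLocalRing.mem_maximalIdeal, mem_nonunits_iff]
  exact not_isUnit_locAt_iff652 B 𝔫 z

/-- The image of `b ∈ B` in `B_𝔫`. -/
def locIncl652 (b : B) : locAt B 𝔫 := ⟨(b : F), le_locAt 𝔫 b.2⟩

theorem isUnit_locIncl_iff652 (b : B) : IsUnit (locIncl652 B 𝔫 b) ↔ b ∉ 𝔫 := by
  constructor
  · intro hu hb
    exact not_isUnit_locAt_of652 B 𝔫 (locIncl652 B 𝔫 b) b 1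
      hb (fun h => h𝔫.ne_top ((Ideal.eq_top_iff_one _).2 h))
      (by show ((1 : B) : F) * (b : F) = (b : F); simp) hu
  · intro hb
    exact isUnit_locAt_of652 B 𝔫 (locIncl652 B 𝔫 b) b 1 hb
      (by show ((1 : B) : F) * (b : F) = (b : F); simp)

end LocAt

section Over

variable {R L : Type*} [CommRing R] [IsLocalRing R] [Field L] [Algebra R L]

/-- A maximal ideal of an integral subalgebra, lying over the closed point. -/
theorem exists_maximal_over652 (S : Subalgebra R L) [Algebra.IsIntegral R S] :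
    ∃ 𝔫 : Ideal S, 𝔫.IsMaximal ∧ 𝔫.comap (algebraMap R S) = maximalIdeal R := by
  obtain ⟨𝔫, h𝔫⟩ := Ideal.exists_maximal S
  refine ⟨𝔫, h𝔫, ?_⟩
  have := Ideal.isMaximal_comap_of_isIntegral_of_isMaximal (R := R) 𝔫
  exact IsLocalRing.eq_maximalIdeal this

/-- Residue representatives: if the residue field of `R` is algebraically closed, every element
of an integral `R`-algebra is congruent to an element of `R` modulo a maximal ideal over the
closed point. -/
theorem exists_residue_rep652 (S : Subalgebra R L) [Algebra.IsIntegral R S]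
    (𝔫 : Ideal S) [h𝔫 : 𝔫.IsMaximal] (hover : 𝔫.comap (algebraMap R S) = maximalIdeal R)
    (hk : IsAlgClosed (ResidueField R)) (b : S) :
    ∃ r : R, b - algebraMap R S r ∈ 𝔫 := by
  have hlies : 𝔫.LiesOver (maximalIdeal R) := ⟨hover.symm⟩
  letI : Field (R ⧸ maximalIdeal R) := Ideal.Quotient.field (maximalIdeal R)
  have hk' : IsAlgClosed (R ⧸ maximalIdeal R) := hk
  have hbij : Function.Bijective (algebraMap (R ⧸ maximalIdeal R) (S ⧸ 𝔫)) :=
    IsAlgClosed.algebraMap_bijective_of_isIntegral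
  obtain ⟨c, hc⟩ := hbij.2 (Ideal.Quotient.mk 𝔫 b)
  obtain ⟨r, rfl⟩ := Ideal.Quotient.mk_surjective c
  refine ⟨r, ?_⟩
  rw [← Ideal.Quotient.eq, ← hc]
  rfl

end Over

end Fermat.Agent.Ribet.H652
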