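/-
# RIBET row 38, WALL-p, package I6, leaf COVER-NODE (helper652), part 1: the polynomial

Mathlib only.  `R` a domain, `p` a prime, `lam ^ (p - 1) = p · ε` with `ε` a unit, `lam ≠ 0`.
The Artin–Schreier type polynomial `P ∈ R[T]` of WPUR:

  `lam ^ p · P(T) = (1 + lam T) ^ p - 1 - lam ^ p z`,   `P` monic,   `ε · P'(T) = (1 + lam T) ^ (p - 1)`.
-/
import Mathlib

set_option autoImplicit false

namespace Fermat.Agent.Ribet.H652

open Polynomial

section ASPoly

variable {R : Type*} [CommRing R]

/-- Coefficients of `(1 + lam T) ^ n`. -/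
theorem coeff_one_add_C_mul_X_pow652 (lam : R) (n i : ℕ) :
    ((1 + C lam * X : R[X]) ^ n).coeff i = (n.choose i : R) * lam ^ i := by
  have h : (1 + C lam * X : R[X]) ^ n = ((1 + X : R[X]) ^ n).comp (C lam * X) := by
    simp
  rw [h, comp_C_mul_X_coeff, coeff_one_add_X_pow]

variable [IsDomain R]

/-- **The Artin–Schreier type polynomial.** -/
theorem exists_asPoly652 (p : ℕ) (hp : p.Prime) (lam ε z : R) (hε : IsUnit ε)
    (hlam : lam ^ (p - 1) = (p : R) * ε) (hlam0 : lam ≠ 0) :
    ∃ P : R[X], P.Monic ∧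
      C (lam ^ p) * P = (1 + C lam * X) ^ p - 1 - C (lam ^ p * z) ∧
      C ε * derivative P = (1 + C lam * X) ^ (p - 1) := by
  obtain ⟨ε', hε'⟩ := hε.exists_right_inv
  have hpR : (p : R) = lam ^ (p - 1) * ε' := by
    rw [hlam, mul_assoc, hε', mul_one]
  have hp1 : p - 1 + 1 = p := Nat.sub_add_cancel hp.one_le
  have hlamp : lam ^ p ≠ 0 := pow_ne_zero _ hlam0
  set Q : R[X] := (1 + C lam * X) ^ p - 1 - C (lam ^ p * z) with hQ
  have hcoeff : ∀ i : ℕ, Q.coeff i =
      (p.choose i : R) * lam ^ i - (if i = 0 then 1 else 0) -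
        (if i = 0 then lam ^ p * z else 0) := by
    intro i
    rw [hQ, coeff_sub, coeff_sub, coeff_one_add_C_mul_X_pow652, coeff_one, coeff_C]
  have hdvd : C (lam ^ p) ∣ Q := by
    rw [C_dvd_iff_dvd_coeff]
    intro i
    rw [hcoeff]
    rcases Nat.eq_zero_or_pos i with h0 | h0
    · subst h0
      simp
    · have hi0 : i ≠ 0 := h0.ne'
      simp only [hi0, if_false, sub_zero]
      rcases lt_trichotomy i p with hlt | heq | hgt
      · obtain ⟨m, hm⟩ := hp.dvd_choose_self hi0 hlt
        obtain ⟨j, rfl⟩ : ∃ j, i = j + 1 := ⟨i - 1, (Nat.sub_add_cancel h0).symm⟩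
        refine ⟨(m : R) * ε' * lam ^ j, ?_⟩
        rw [hm, Nat.cast_mul, hpR]
        have : lam ^ p = lam ^ (p - 1) * lam := by
          conv_lhs => rw [← hp1, pow_succ]
        rw [this, pow_succ]
        ring
      · subst heq
        simp
      · rw [Nat.choose_eq_zero_of_lt hgt]
        simp
  obtain ⟨P, hP⟩ := hdvd
  have hPc : ∀ i : ℕ, lam ^ p * P.coeff i = Q.coeff i := by
    intro i
    rw [hP, coeff_C_mul]
  have hmonic : P.Monic := by
    apply monic_of_natDegree_le_of_coeff_eq_one p
    · rw [natDegree_le_iff_coeff_eq_zero]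
      intro i hi
      have h1 := hPc i
      rw [hcoeff, Nat.choose_eq_zero_of_lt hi] at h1
      have hi0 : i ≠ 0 := by omega
      simp only [hi0, if_false, Nat.cast_zero, zero_mul, sub_zero] at h1
      exact (mul_eq_zero.mp h1).resolve_left hlamp
    · have h1 := hPc p
      rw [hcoeff] at h1
      simp only [hp.ne_zero, if_false, Nat.choose_self, Nat.cast_one, one_mul, sub_zero] at h1
      have h2 : lam ^ p * P.coeff p = lam ^ p * 1 := by rw [h1, mul_one]
      exact mul_left_cancel₀ hlamp h2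
  refine ⟨P, hmonic, hP.symm, ?_⟩
  have hd : derivative Q = C ((p : R) * lam) * (1 + C lam * X) ^ (p - 1) := by
    rw [hQ, derivative_sub, derivative_sub, derivative_one, derivative_C, derivative_pow]
    simp only [derivative_add, derivative_one, derivative_mul, derivative_C, derivative_X,
      zero_mul, zero_add, mul_one, sub_zero]
    rw [C_mul, C_eq_natCast]
    ring
  have hd2 : derivative Q = C (lam ^ p) * derivative P := by
    rw [hP, derivative_mul, derivative_C, zero_mul, zero_add]
  have hCne : (C (lam ^ p) : R[X]) ≠ 0 := by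
    rw [Ne, C_eq_zero]
    exact hlamp
  apply mul_left_cancel₀ hCne
  have e1 : (p : R) * lam * ε = lam ^ p := by
    have : lam ^ p = lam ^ (p - 1) * lam := by
      conv_lhs => rw [← hp1, pow_succ]
    rw [this, hlam]
    ring
  calc C (lam ^ p) * (C ε * derivative P) = C ε * (C (lam ^ p) * derivative P) := by ring
    _ = C ε * (C ((p : R) * lam) * (1 + C lam * X) ^ (p - 1)) := by rw [← hd2, hd]
    _ = C ((p : R) * lam * ε) * (1 + C lam * X) ^ (p - 1) := by
        rw [C_mul (a := (p : R) * lam) (b := ε)]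
        ring
    _ = C (lam ^ p) * (1 + C lam * X) ^ (p - 1) := by rw [e1]

end ASPoly

end Fermat.Agent.Ribet.H652
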