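/-
# RIBET row 38, WALL-p, package I6, leaf COVER-NODE (helper652)

`theorem coverNode : H704.I6.CoverNodeStatement` (VERBATIM, `Ribet/H704/I6Inst.lean`).

Proof.  WPUR (`H524.wildPurity524`) gives `g d₂^p = d₁^p s^p (1 + lam^p z)`.  Put
`u = h d₂ / (d₁ s) ∈ L`, `Y = (u - 1) / lam`: then `(1 + lam Y)^p = 1 + lam^p z`, so `Y` is a root of
the monic Artin–Schreier type polynomial `P` (`exists_asPoly652`), `ε P'(Y) = (1 + lam Y)^(p-1)`.
`S = R[Y] ⊆ L` is integral over `R`; `𝔫` a maximal ideal of `S` (it lies over the closed point);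
`R' = S_𝔫 ⊆ L` (`A2.H348.locAt`).  `R'` is local, `Frac R' = L` (`L = K(Y) = K[Y]`), the residue
extension is trivial (`k` algebraically closed), `P'(Y)` is a unit of `R'`.  ETNODE
(`H600.etaleNode`) gives normality, noetherianity and the node structure; lying-over follows
from `x ∉ 𝔭₁ R'`, `y ∉ 𝔭₂ R'`.
-/
import Fermat.Agent.Ribet.H704.I6Inst
import Fermat.Agent.Ribet.H600.EtaleNode
import Fermat.Agent.Ribet.H524.WildPurity
import Fermat.Agent.Ribet.H652.CoverPoly
import Fermat.Agent.Ribet.H652.CoverLoc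

set_option autoImplicit false
set_option linter.style.haveILetI false
set_option linter.unusedSectionVars false

namespace Fermat.Agent.Ribet.H652

open Polynomial IsLocalRing Fermat.Agent.Ribet.H704.I6 Fermat.Agent.A2.H348

/-! ## Lying over, from the node structure upstairs -/

section LyingOver

variable {R R' : Type*} [CommRing R] [IsLocalRing R] [CommRing R'] [IsLocalRing R']
  [Algebra R R']

/-- If `(𝔭₁R', 𝔭₂R', π, x, y)` is a node of `R'`, then `𝔭₁ R' ∩ R = 𝔭₁`. -/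
theorem mem_of_map_mem_left652 {𝔭₁ 𝔭₂ : Ideal R} {π x y : R} (hN : IsNode 𝔭₁ 𝔭₂ π x y)
    (hN' : IsNode (𝔭₁.map (algebraMap R R')) (𝔭₂.map (algebraMap R R')) (algebraMap R R' π)
      (algebraMap R R' x) (algebraMap R R' y))
    (a : R) (ha : algebraMap R R' a ∈ 𝔭₁.map (algebraMap R R')) : a ∈ 𝔭₁ := by
  by_contra hna
  obtain ⟨n, hn⟩ := hN.unif₁ a hna
  -- `a ≡ v x ^ n mod 𝔭₁` with `v` a unit modulo `𝔭₁`
  obtain ⟨v, hv⟩ := hn.symm
  obtain ⟨v₀, hv₀⟩ := Ideal.Quotient.mk_surjective (v : R ⧸ 𝔭₁)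
  have h1 : x ^ n * v₀ - a ∈ 𝔭₁ := by
    rw [← Ideal.Quotient.eq, map_mul, map_pow, hv₀]
    exact hv
  haveI := hN.prime₁
  have hv₀u : IsUnit v₀ := by
    by_contra hnu
    have hm : v₀ ∈ maximalIdeal R := (IsLocalRing.mem_maximalIdeal v₀).2 hnu
    have hle : 𝔭₁ ≤ maximalIdeal R := IsLocalRing.le_maximalIdeal hN.prime₁.ne_top
    have hIu : IsUnit (Ideal.Quotient.mk 𝔭₁ v₀) := by rw [hv₀]; exact v.isUnit
    obtain ⟨w, hw⟩ := hIu.exists_right_inv
    obtain ⟨w₀, rfl⟩ := Ideal.Quotient.mk_surjective w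
    have h2 : v₀ * w₀ - 1 ∈ 𝔭₁ := by
      rw [← Ideal.Quotient.eq, map_mul, map_one]
      exact hw
    have h3 : (1 : R) ∈ maximalIdeal R := by
      have : (1 : R) = v₀ * w₀ - (v₀ * w₀ - 1) := by ring
      rw [this]
      exact (maximalIdeal R).sub_mem ((maximalIdeal R).mul_mem_right _ hm) (hle h2)
    exact (Ideal.ne_top_iff_one _).1 (IsLocalRing.maximalIdeal.isMaximal R).ne_top h3
  have h4 : algebraMap R R' (x ^ n * v₀) ∈ 𝔭₁.map (algebraMap R R') := by
    have : x ^ n * v₀ = (x ^ n * v₀ - a) + a := by ring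
    rw [this, map_add]
    exact Ideal.add_mem _ (Ideal.mem_map_of_mem _ h1) ha
  rw [map_mul, map_pow] at h4
  haveI := hN'.prime₁
  rcases Ideal.IsPrime.mem_or_mem hN'.prime₁ h4 with h5 | h5
  · exact hN'.hx₁ (Ideal.IsPrime.mem_of_pow_mem hN'.prime₁ n h5)
  · have : IsUnit (algebraMap R R' v₀) := hv₀u.map _
    exact hN'.prime₁.ne_top (Ideal.eq_top_of_isUnit_mem _ h5 this)

/-- the node structure is symmetric. -/
theorem isNode_symm652 {R : Type*} [CommRing R] [IsLocalRing R] {𝔭₁ 𝔭₂ : Ideal R} {π x y : R}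
    (hN : IsNode 𝔭₁ 𝔭₂ π x y) : IsNode 𝔭₂ 𝔭₁ π y x where
  prime₁ := hN.prime₂
  prime₂ := hN.prime₁
  inf_eq := by rw [inf_comm]; exact hN.inf_eq
  sup_eq := by rw [sup_comm]; exact hN.sup_eq
  hx := hN.hy
  hy := hN.hx
  unif₁ := hN.unif₂
  unif₂ := hN.unif₁
  hx₁ := hN.hy₂
  hy₂ := hN.hx₁
  nonunit₁ := hN.nonunit₂
  nonunit₂ := hN.nonunit₁

theorem mem_of_map_mem_right652 {𝔭₁ 𝔭₂ : Ideal R} {π x y : R} (hN : IsNode 𝔭₁ 𝔭₂ π x y)
    (hN' : IsNode (𝔭₁.map (algebraMap R R')) (𝔭₂.map (algebraMap R R')) (algebraMap R R' π)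
      (algebraMap R R' x) (algebraMap R R' y))
    (a : R) (ha : algebraMap R R' a ∈ 𝔭₂.map (algebraMap R R')) : a ∈ 𝔭₂ :=
  mem_of_map_mem_left652 (isNode_symm652 hN) (isNode_symm652 hN') a ha

end LyingOver

/-! ## The fraction field of `R[Y]_𝔫` -/

section Frac

variable {R K L : Type*} [CommRing R] [IsDomain R] [Field K] [Algebra R K] [IsFractionRing R K]
  [Field L] [Algebra K L] [Algebra R L] [IsScalarTower R K L]

theorem algebraMap_injective652 (R K L : Type*) [CommRing R] [IsDomain R] [Field K]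
    [Algebra R K] [IsFractionRing R K] [Field L] [Algebra K L] [Algebra R L]
    [IsScalarTower R K L] : Function.Injective (algebraMap R L) := by
  rw [IsScalarTower.algebraMap_eq R K L]
  exact (algebraMap K L).injective.comp (IsFractionRing.injective R K)

/-- Every element of `K(Y) = L`, `Y` integral over `R`, is `b / r` with `b ∈ R[Y]`, `r ∈ R`. -/
theorem exists_adjoin_div652 (Y : L) (hY : IsIntegral R Y)
    (hadj : IntermediateField.adjoin K ({Y} : Set L) = ⊤) (z : L) :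
    ∃ (b : L) (r : R), b ∈ Algebra.adjoin R ({Y} : Set L) ∧ r ≠ 0 ∧ algebraMap R L r * z = b := by
  have hYK : IsAlgebraic K Y := (hY.tower_top (A := K)).isAlgebraic
  have hz : z ∈ (IntermediateField.adjoin K ({Y} : Set L)).toSubalgebra := by
    rw [hadj]; trivial
  rw [IntermediateField.adjoin_simple_toSubalgebra_of_isAlgebraic hYK,
    Algebra.adjoin_singleton_eq_range_aeval] at hz
  obtain ⟨q, hq⟩ := hz
  obtain ⟨b, hb, hbq⟩ := IsLocalization.integerNormalization_spec (nonZeroDivisors R) q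
  refine ⟨aeval Y (IsLocalization.integerNormalization (nonZeroDivisors R) q), b,
    aeval_mem_adjoin_singleton R Y, nonZeroDivisors.ne_zero hb, ?_⟩
  have h1 : aeval Y ((IsLocalization.integerNormalization (nonZeroDivisors R) q).map
      (algebraMap R K)) = aeval Y (b • q) := by rw [hbq]
  rw [aeval_map_algebraMap] at h1
  have hq' : aeval Y q = z := hq
  rw [h1, ← algebraMap_smul K b q, map_smul, algebraMap_smul, Algebra.smul_def, hq']

/-- `Frac (R[Y]_𝔫) = L`. -/
theorem isFractionRing_locAt652 (Y : L) (hY : IsIntegral R Y)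
    (hadj : IntermediateField.adjoin K ({Y} : Set L) = ⊤)
    (𝔫 : Ideal (Algebra.adjoin R ({Y} : Set L))) [𝔫.IsPrime] :
    IsFractionRing (locAt (Algebra.adjoin R ({Y} : Set L)) 𝔫) L := by
  have hinj : Function.Injective (algebraMap R L) := algebraMap_injective652 R K L
  refine IsFractionRing.of_field _ L fun z => ?_
  obtain ⟨b, r, hb, hr, hbz⟩ := exists_adjoin_div652 (K := K) Y hY hadj z
  refine ⟨⟨b, le_locAt 𝔫 hb⟩, ⟨algebraMap R L r, Subalgebra.algebraMap_mem _ r⟩, ?_⟩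
  have hr0 : algebraMap R L r ≠ 0 := by
    intro h0
    exact hr (hinj (by rw [h0, map_zero]))
  show z = b / algebraMap R L r
  rw [← hbz]
  field_simp

end Frac

/-! ## The core: from the WPUR normal form to the node ring of the cover -/

section Core

/-- **COVER-NODE, core.**  From `g d₂^p = d₁^p s^p (1 + lam^p z)` to a node ring of `L = K(h)`,
`h ^ p = g`. -/
theorem coverNode_core652
    (R K L : Type) [CommRing R] [IsDomain R] [IsIntegrallyClosed R] [IsNoetherianRing R]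
    [IsLocalRing R] [Field K] [Algebra R K] [IsFractionRing R K] [Field L] [Algebra K L]
    [Algebra R L] [IsScalarTower R K L]
    (𝔭₁ 𝔭₂ : Ideal R) (π x y : R) (hN : IsNode 𝔭₁ 𝔭₂ π x y)
    (hk : IsAlgClosed (IsLocalRing.ResidueField R))
    (p : ℕ) (hp : p.Prime) (lam ε : R) (hε : IsUnit ε) (hlam : lam ^ (p - 1) = (p : R) * ε)
    (hlam0 : lam ≠ 0) (hlamm : lam ∈ maximalIdeal R)
    (g d₁ d₂ s z : R) (hd₁ : d₁ ≠ 0) (hd₂ : d₂ ≠ 0) (hs : IsUnit s)
    (hW : g * d₂ ^ p = d₁ ^ p * s ^ p * (1 + lam ^ p * z))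
    (h : L) (hh : h ^ p = algebraMap R L g)
    (hadj : IntermediateField.adjoin K ({h} : Set L) = ⊤) :
    ∃ (R' : Subalgebra R L) (_ : IsLocalRing R'),
      IsIntegrallyClosed R' ∧ IsNoetherianRing R' ∧ IsFractionRing R' L ∧
      IsNode (𝔭₁.map (algebraMap R R')) (𝔭₂.map (algebraMap R R')) (algebraMap R R' π)
        (algebraMap R R' x) (algebraMap R R' y) ∧
      (∀ a : R, algebraMap R R' a ∈ 𝔭₁.map (algebraMap R R') → a ∈ 𝔭₁) ∧
      (∀ a : R, algebraMap R R' a ∈ 𝔭₂.map (algebraMap R R') → a ∈ 𝔭₂) := by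
  classical
  have hinj : Function.Injective (algebraMap R L) := algebraMap_injective652 R K L
  have hne : ∀ {r : R}, r ≠ 0 → algebraMap R L r ≠ 0 := fun {r} hr h0 =>
    hr (hinj (by rw [h0, map_zero]))
  have hs0 : s ≠ 0 := hs.ne_zero
  have hlamL : algebraMap R L lam ≠ 0 := hne hlam0
  have hd₁L : algebraMap R L d₁ ≠ 0 := hne hd₁
  have hd₂L : algebraMap R L d₂ ≠ 0 := hne hd₂
  have hsL : algebraMap R L s ≠ 0 := hne hs0
  -- the Kummer generator `u` and the Artin–Schreier coordinate `Y`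
  set u : L := h * algebraMap R L d₂ / (algebraMap R L d₁ * algebraMap R L s) with hu
  set Y : L := (u - 1) / algebraMap R L lam with hYdef
  have huY : u = 1 + algebraMap R L lam * Y := by
    rw [hYdef]; field_simp; ring
  have hup : u ^ p = 1 + algebraMap R L lam ^ p * algebraMap R L z := by
    have h1 : u ^ p * (algebraMap R L d₁ ^ p * algebraMap R L s ^ p) =
        algebraMap R L (g * d₂ ^ p) := by
      rw [hu, div_pow, mul_pow, mul_pow, hh, map_mul, map_pow]
      field_simp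
    rw [hW] at h1
    have h2 : algebraMap R L d₁ ^ p * algebraMap R L s ^ p ≠ 0 :=
      mul_ne_zero (pow_ne_zero _ hd₁L) (pow_ne_zero _ hsL)
    apply mul_right_cancel₀ h2
    rw [h1]
    simp only [map_mul, map_pow, map_add, map_one]
    ring
  -- the polynomial
  obtain ⟨P, hPm, hPeq, hPder⟩ := exists_asPoly652 p hp lam ε z hε hlam hlam0
  have hPY : aeval Y P = 0 := by
    have h1 := congrArg (aeval Y) hPeq
    simp only [map_mul, map_sub, map_pow, map_add, map_one, aeval_C, aeval_X] at h1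
    rw [← huY, hup] at h1
    have h2 : algebraMap R L lam ^ p * aeval Y P = 0 := by
      rw [h1]; ring
    exact (mul_eq_zero.mp h2).resolve_left (pow_ne_zero _ hlamL)
  have hPdY : algebraMap R L ε * aeval Y (derivative P) = u ^ (p - 1) := by
    have h1 := congrArg (aeval Y) hPder
    simp only [map_mul, map_pow, map_add, map_one, aeval_C, aeval_X] at h1
    rw [← huY] at h1
    exact h1
  have hYint : IsIntegral R Y := ⟨P, hPm, by rw [← aeval_def]; exact hPY⟩
  -- `K(Y) = L`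
  have hadjY : IntermediateField.adjoin K ({Y} : Set L) = ⊤ := by
    rw [eq_top_iff, ← hadj, IntermediateField.adjoin_simple_le_iff]
    have hYmem : Y ∈ IntermediateField.adjoin K ({Y} : Set L) :=
      IntermediateField.mem_adjoin_simple_self K Y
    have hR : ∀ r : R, algebraMap R L r ∈ IntermediateField.adjoin K ({Y} : Set L) := by
      intro r
      rw [IsScalarTower.algebraMap_apply R K L]
      exact IntermediateField.algebraMap_mem _ _
    have humem : u ∈ IntermediateField.adjoin K ({Y} : Set L) := by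
      rw [huY]
      exact add_mem (one_mem _) (mul_mem (hR lam) hYmem)
    have hh' : h = u * (algebraMap R L d₁ * algebraMap R L s) / algebraMap R L d₂ := by
      rw [hu]; field_simp
    rw [hh']
    exact div_mem (mul_mem humem (mul_mem (hR d₁) (hR s))) (hR d₂)
  -- the ring `S = R[Y]` and a maximal ideal
  set S : Subalgebra R L := Algebra.adjoin R ({Y} : Set L) with hS
  haveI hSint : Algebra.IsIntegral R S :=
    Algebra.IsIntegral.adjoin (fun a ha => by rw [Set.mem_singleton_iff.1 ha]; exact hYint)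
  obtain ⟨𝔫, h𝔫max, hover⟩ := exists_maximal_over652 S
  haveI := h𝔫max
  haveI h𝔫p : 𝔫.IsPrime := h𝔫max.isPrime
  have hmem𝔫 : ∀ r : R, algebraMap R S r ∈ 𝔫 ↔ r ∈ maximalIdeal R := by
    intro r
    rw [← hover, Ideal.mem_comap]
  have hone : (1 : S) ∉ 𝔫 := fun h1 => h𝔫p.ne_top ((Ideal.eq_top_iff_one _).2 h1)
  -- the local ring
  have hloc : IsLocalRing (locAt S 𝔫) := isLocalRing_locAt652 S 𝔫
  haveI := hloc
  have hfrac : IsFractionRing (locAt S 𝔫) L := isFractionRing_locAt652 (K := K) Y hYint hadjY 𝔫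
  have hYS : Y ∈ S := Algebra.subset_adjoin (Set.mem_singleton Y)
  have hcoe : ∀ r : R, ((algebraMap R (locAt S 𝔫) r : locAt S 𝔫) : L) = algebraMap R L r :=
    fun r => rfl
  have hinj' : Function.Injective (algebraMap R (locAt S 𝔫)) := by
    intro a b hab
    apply hinj
    rw [← hcoe, ← hcoe, hab]
  have hmax_of : ∀ r : R, r ∈ maximalIdeal R →
      algebraMap R (locAt S 𝔫) r ∈ maximalIdeal (locAt S 𝔫) := by
    intro r hr
    rw [mem_maximalIdeal_locAt_iff652 S 𝔫 hloc]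
    refine ⟨algebraMap R S r, 1, (hmem𝔫 r).2 hr, hone, ?_⟩
    show ((1 : S) : L) * algebraMap R L r = algebraMap R L r
    simp
  haveI hlh : IsLocalHom (algebraMap R (locAt S 𝔫)) := by
    constructor
    intro r hr
    by_contra hnu
    have hm : r ∈ maximalIdeal R := (IsLocalRing.mem_maximalIdeal r).2 hnu
    exact (IsLocalRing.mem_maximalIdeal _).1 (hmax_of r hm) hr
  -- the element `Y'`
  set Y' : locAt S 𝔫 := ⟨Y, le_locAt 𝔫 hYS⟩ with hY'
  have haevalcoe : ∀ q : R[X], ((aeval Y' q : locAt S 𝔫) : L) = aeval Y q := by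
    intro q
    exact aeval_subalgebra_coe q (locAt S 𝔫) Y'
  have hroot : aeval Y' P = 0 := by
    apply Subtype.ext
    rw [haevalcoe, hPY]
    rfl
  -- `u` is a unit of `R'`
  set u' : locAt S 𝔫 := 1 + algebraMap R (locAt S 𝔫) lam * Y' with hu'
  have hu'coe : (u' : L) = u := by
    rw [huY]
    rfl
  have hu'unit : IsUnit u' := by
    by_contra hnu
    have h1 : u' ∈ maximalIdeal (locAt S 𝔫) := (IsLocalRing.mem_maximalIdeal _).2 hnu
    have h2 : algebraMap R (locAt S 𝔫) lam * Y' ∈ maximalIdeal (locAt S 𝔫) :=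
      Ideal.mul_mem_right _ _ (hmax_of lam hlamm)
    have h3 : (1 : locAt S 𝔫) ∈ maximalIdeal (locAt S 𝔫) := by
      have : (1 : locAt S 𝔫) = u' - algebraMap R (locAt S 𝔫) lam * Y' := by
        rw [hu']; ring
      rw [this]
      exact Ideal.sub_mem _ h1 h2
    exact (Ideal.ne_top_iff_one _).1 (IsLocalRing.maximalIdeal.isMaximal _).ne_top h3
  have hunit : IsUnit (aeval Y' (derivative P)) := by
    have h1 : algebraMap R (locAt S 𝔫) ε * aeval Y' (derivative P) = u' ^ (p - 1) := by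
      apply Subtype.ext
      show algebraMap R L ε * ((aeval Y' (derivative P) : locAt S 𝔫) : L) = (u' : L) ^ (p - 1)
      rw [haevalcoe, hPdY, hu'coe]
    have h2 : IsUnit (algebraMap R (locAt S 𝔫) ε * aeval Y' (derivative P)) := by
      rw [h1]; exact hu'unit.pow _
    exact isUnit_of_mul_isUnit_right h2
  -- `R'` is a localisation of `R[Y']`
  have hadj_mem : ∀ b : S, (⟨(b : L), le_locAt 𝔫 b.2⟩ : locAt S 𝔫) ∈
      Algebra.adjoin R ({Y'} : Set (locAt S 𝔫)) := by
    intro b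
    have h1 : (Algebra.adjoin R ({Y'} : Set (locAt S 𝔫))).map (locAt S 𝔫).val = S := by
      rw [AlgHom.map_adjoin, Set.image_singleton]
      rfl
    have h2 : (b : L) ∈ (Algebra.adjoin R ({Y'} : Set (locAt S 𝔫))).map (locAt S 𝔫).val := by
      rw [h1]; exact b.2
    obtain ⟨c, hc, hcb⟩ := h2
    have : c = ⟨(b : L), le_locAt 𝔫 b.2⟩ := Subtype.ext hcb
    rw [← this]
    exact hc
  have hlocz : ∀ z : locAt S 𝔫, ∃ (a s : locAt S 𝔫),
      a ∈ Algebra.adjoin R ({Y'} : Set (locAt S 𝔫)) ∧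
      s ∈ Algebra.adjoin R ({Y'} : Set (locAt S 𝔫)) ∧ IsUnit s ∧ z * s = a := by
    intro z
    obtain ⟨s₀, hs₀, hsz⟩ := z.2
    refine ⟨⟨(s₀ : L) * (z : L), le_locAt 𝔫 hsz⟩, ⟨(s₀ : L), le_locAt 𝔫 s₀.2⟩,
      hadj_mem ⟨(s₀ : L) * (z : L), hsz⟩, hadj_mem s₀, ?_, ?_⟩
    · exact (isUnit_locIncl_iff652 S 𝔫 s₀).2 hs₀
    · apply Subtype.ext
      show (z : L) * (s₀ : L) = (s₀ : L) * (z : L)
      exact mul_comm _ _
  -- trivial residue extension
  have hres : ∀ z : locAt S 𝔫, ∃ r : R,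
      z - algebraMap R (locAt S 𝔫) r ∈ maximalIdeal (locAt S 𝔫) := by
    intro z
    obtain ⟨s₀, hs₀, hsz⟩ := z.2
    obtain ⟨r₁, hr₁⟩ := exists_residue_rep652 S 𝔫 hover hk ⟨(s₀ : L) * (z : L), hsz⟩
    obtain ⟨r₂, hr₂⟩ := exists_residue_rep652 S 𝔫 hover hk s₀
    have hr₂u : IsUnit r₂ := by
      by_contra hnu
      have hm : r₂ ∈ maximalIdeal R := (IsLocalRing.mem_maximalIdeal r₂).2 hnu
      apply hs₀
      have : s₀ = (s₀ - algebraMap R S r₂) + algebraMap R S r₂ := by ring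
      rw [this]
      exact 𝔫.add_mem hr₂ ((hmem𝔫 r₂).2 hm)
    obtain ⟨r₂', hr₂'⟩ := hr₂u.exists_right_inv
    refine ⟨r₁ * r₂', ?_⟩
    rw [mem_maximalIdeal_locAt_iff652 S 𝔫 hloc]
    refine ⟨(⟨(s₀ : L) * (z : L), hsz⟩ - algebraMap R S r₁) +
      algebraMap R S (r₁ * r₂') * (algebraMap R S r₂ - s₀), s₀, ?_, hs₀, ?_⟩
    · refine 𝔫.add_mem hr₁ (𝔫.mul_mem_left _ ?_)
      have : algebraMap R S r₂ - s₀ = -(s₀ - algebraMap R S r₂) := by ring
      rw [this]
      exact 𝔫.neg_mem hr₂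
    · show (s₀ : L) * ((z : L) - algebraMap R L (r₁ * r₂')) =
        ((s₀ : L) * (z : L) - algebraMap R L r₁) +
          algebraMap R L (r₁ * r₂') * (algebraMap R L r₂ - (s₀ : L))
      have h1 : algebraMap R L (r₁ * r₂') * algebraMap R L r₂ = algebraMap R L r₁ := by
        rw [← map_mul, mul_assoc, mul_comm r₂' r₂, hr₂', mul_one]
      linear_combination -h1
  -- ETNODE
  obtain ⟨hic, hnoeth, hnode⟩ := H600.etaleNode R (locAt S 𝔫) 𝔭₁ 𝔭₂ π x y hN hinj' Y' P hPm
    hroot hunit hlocz hres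
  exact ⟨locAt S 𝔫, hloc, hic, hnoeth, hfrac, hnode,
    mem_of_map_mem_left652 hN hnode, mem_of_map_mem_right652 hN hnode⟩

/-- **COVER-NODE** (`H704.I6.CoverNodeStatement`, verbatim). -/
theorem coverNode : CoverNodeStatement := by
  intro R K L _ _ _ _ _ _ _ _ _ _ _ _ 𝔭₁ 𝔭₂ π x y hN hk p hp ζ hζ lam ε η e hlamζ hε hlam hη he
    hlamπ g hg₁ hg₂ hdiv happ₁ happ₂ h hh hadj
  obtain ⟨d₁, d₂, s, z, hd₁, hd₂, hs, hW⟩ := H524.wildPurity524 R 𝔭₁ 𝔭₂ π x y hN p hp lam ε η e
    hε hlam hη he hlamπ g hg₁ hg₂ hdiv happ₁ happ₂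
  have hlam0 : lam ≠ 0 := by
    rw [hlamζ]
    exact sub_ne_zero.2 (hζ.ne_one hp.one_lt)
  have hπm : π ∈ maximalIdeal R := by
    have h1 : π ∈ 𝔭₁ ⊓ 𝔭₂ := by
      rw [hN.inf_eq]
      exact Ideal.mem_span_singleton_self π
    exact IsLocalRing.le_maximalIdeal hN.prime₁.ne_top h1.1
  have hlamm : lam ∈ maximalIdeal R := by
    rw [hlamπ]
    exact Ideal.mul_mem_left _ _ (Ideal.pow_mem_of_mem _ hπm e he)
  exact coverNode_core652 R K L 𝔭₁ 𝔭₂ π x y hN hk p hp lam ε hε hlam hlam0 hlamm g d₁ d₂ s z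
    hd₁ hd₂ hs hW h hh hadj

end Core

end Fermat.Agent.Ribet.H652
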