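/-
# RIBET row 38, WALL-p, (S2) / W-ALGP, leaf HCONST-p (helper652), part 1: the wild Kummer cover
# `z ^ p = 1 + (ζ - 1) ^ p w t` is unramified with trivial residue extension

Wild port of `A2.H552.kummer_unramified` (helper552).  `K ⊆ Ω` fields, `V` a valuation subring of
`K` with uniformiser `w`, `ζ ∈ K` a primitive `p`-th root of unity (`p` prime, ANY residue
characteristic), `Ω = K[z]`, `z ^ p = 1 + (ζ - 1) ^ p w t`, `t ∈ V`; `W` any valuation subring of `Ω`
over `V` in which `w` is not a unit.  Then `𝔪_W = w W` and `W = V + w W`.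

Proof (no completions, no relation between `p` and `ζ - 1` needed): `z ^ p - 1 = ∏ᵢ (z - ζⁱ)`, the
differences `ζⁱ - ζʲ` have the valuation of `λ = ζ - 1` (cyclotomic units), so exactly one factor
`z - ζ^j₀` is smaller than `λ`; `s := (z - ζ^j₀)/(λ w)` satisfies `s · ∏_{i ≠ j₀} (cᵢ + w s) = t` with
units `cᵢ = (ζ^j₀ - ζⁱ)/λ` of `V`; then `A = V[s] = V + w A`, `W = A` exactly as in the tame case.
-/
import Fermat.Agent.A2.H552.KummerUnram

set_option autoImplicit false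

namespace Fermat.Agent.Ribet.H652

open Polynomial Fermat.Agent.A2.H552

section Roots

variable {F : Type*} [Field F] {Γ : Type*} [LinearOrderedCommGroupWithZero Γ]

/-- `v (μ ^ k - 1) ≤ v (μ - 1)` for `v μ ≤ 1`. -/
theorem val_pow_sub_one_le652 (v : Valuation F Γ) {μ : F} (hμ : v μ ≤ 1) (k : ℕ) :
    v (μ ^ k - 1) ≤ v (μ - 1) := by
  rw [← mul_geom_sum μ k, map_mul]
  have h1 : v (∑ l ∈ Finset.range k, μ ^ l) ≤ 1 := by
    refine Valuation.map_sum_le _ fun l _ => ?_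
    rw [map_pow]
    exact pow_le_one₀ zero_le hμ
  calc v (μ - 1) * v (∑ l ∈ Finset.range k, μ ^ l) ≤ v (μ - 1) * 1 := by gcongr
    _ = v (μ - 1) := mul_one _

/-- Cyclotomic units: `v (ξ ^ k - 1) = v (ξ - 1)` for `0 < k < p`. -/
theorem val_pow_sub_one_eq652 (v : Valuation F Γ) {p : ℕ} (hp : p.Prime) {ξ : F}
    (hξ : IsPrimitiveRoot ξ p) {k : ℕ} (hk0 : k ≠ 0) (hk : k < p) :
    v (ξ ^ k - 1) = v (ξ - 1) := by
  have : NeZero p := ⟨hp.ne_zero⟩
  have hvξ : v ξ = 1 := by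
    have h1 : v ξ ^ p = 1 := by rw [← map_pow, hξ.pow_eq_one, map_one]
    exact eq_one_of_pow_eq_one₀ hp.ne_zero h1
  refine le_antisymm (val_pow_sub_one_le652 v hvξ.le k) ?_
  have hcop : k.Coprime p := by
    rw [Nat.coprime_comm]
    exact (Nat.Prime.coprime_iff_not_dvd hp).2 (Nat.not_dvd_of_pos_of_lt (Nat.pos_of_ne_zero hk0) hk)
  have hξk : IsPrimitiveRoot (ξ ^ k) p := hξ.pow_of_coprime k hcop
  obtain ⟨l, -, hl⟩ := hξk.eq_pow_of_pow_eq_one hξ.pow_eq_one
  have hvk : v (ξ ^ k) ≤ 1 := by rw [map_pow, hvξ, one_pow]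
  calc v (ξ - 1) = v ((ξ ^ k) ^ l - 1) := by rw [hl]
    _ ≤ v (ξ ^ k - 1) := val_pow_sub_one_le652 v hvk l

/-- `v (ξ ^ i - ξ ^ j) = v (ξ - 1)` for `i ≠ j`, `i, j < p`. -/
theorem val_pow_sub_pow_eq652 (v : Valuation F Γ) {p : ℕ} (hp : p.Prime) {ξ : F}
    (hξ : IsPrimitiveRoot ξ p) {i j : ℕ} (hi : i < p) (hj : j < p) (hij : i ≠ j) :
    v (ξ ^ i - ξ ^ j) = v (ξ - 1) := by
  have hvξ : v ξ = 1 := by
    have h1 : v ξ ^ p = 1 := by rw [← map_pow, hξ.pow_eq_one, map_one]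
    exact eq_one_of_pow_eq_one₀ hp.ne_zero h1
  have key : ∀ a b : ℕ, a < b → b < p → v (ξ ^ b - ξ ^ a) = v (ξ - 1) := by
    intro a b hab hb
    have h1 : ξ ^ b - ξ ^ a = ξ ^ a * (ξ ^ (b - a) - 1) := by
      rw [mul_sub, mul_one, ← pow_add]
      congr 2
      omega
    rw [h1, map_mul, map_pow, hvξ, one_pow, one_mul]
    exact val_pow_sub_one_eq652 v hp hξ (by omega) (by omega)
  rcases lt_or_gt_of_ne hij with h | h
  · rw [Valuation.map_sub_swap]
    exact key i j h hj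
  · exact key j i h hi

/-- `z ^ p - 1 = ∏_{i < p} (z - ξ ^ i)`. -/
theorem pow_sub_one_eq_prod_range652 {p : ℕ} (hp : 0 < p) {ξ : F} (hξ : IsPrimitiveRoot ξ p)
    (z : F) : z ^ p - 1 = ∏ i ∈ Finset.range p, (z - ξ ^ i) := by
  classical
  have : NeZero p := ⟨hp.ne'⟩
  have h := congrArg (eval z) (X_pow_sub_one_eq_prod hp hξ)
  have himg : nthRootsFinset p (1 : F) = (Finset.range p).image (fun i => ξ ^ i) := by
    ext η
    rw [mem_nthRootsFinset hp, Finset.mem_image]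
    constructor
    · intro hη
      obtain ⟨i, hi, rfl⟩ := hξ.eq_pow_of_pow_eq_one hη
      exact ⟨i, Finset.mem_range.2 hi, rfl⟩
    · rintro ⟨i, -, rfl⟩
      rw [← pow_mul, mul_comm, pow_mul, hξ.pow_eq_one, one_pow]
  rw [himg, Finset.prod_image] at h
  · simpa [eval_prod] using h
  · intro i hi j hj hij
    exact hξ.pow_inj (Finset.mem_range.1 hi) (Finset.mem_range.1 hj) hij

end Roots

section ProdAdd

variable {Ω : Type*} [CommRing Ω]

/-- `∏ (cᵢ + x) = ∏ cᵢ + x c₀` with `c₀` in any subring containing `x` and the `cᵢ`. -/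
theorem exists_prod_add_eq652 {ι : Type*} (A : Subring Ω) (I : Finset ι) (c : ι → Ω)
    (hc : ∀ i ∈ I, c i ∈ A) (x : Ω) (hx : x ∈ A) :
    ∃ c₀ ∈ A, ∏ i ∈ I, (c i + x) = ∏ i ∈ I, c i + x * c₀ := by
  classical
  induction I using Finset.induction_on with
  | empty => exact ⟨0, A.zero_mem, by simp⟩
  | insert a I ha ih =>
    obtain ⟨c₀, hc₀, h⟩ := ih (fun i hi => hc i (Finset.mem_insert_of_mem hi))
    have hca : c a ∈ A := hc a (Finset.mem_insert_self a I)
    have hprod : ∏ i ∈ I, c i ∈ A :=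
      A.prod_mem fun i hi => hc i (Finset.mem_insert_of_mem hi)
    refine ⟨c a * c₀ + ∏ i ∈ I, c i + x * c₀, ?_, ?_⟩
    · exact A.add_mem (A.add_mem (A.mul_mem hca hc₀) hprod) (A.mul_mem hx hc₀)
    · rw [Finset.prod_insert ha, Finset.prod_insert ha, h]
      ring

end ProdAdd

section WildUnram

variable {K Ω : Type*} [Field K] [Field Ω] [Algebra K Ω]

/-- **Wild cyclic Kummer extensions `z ^ p = 1 + (ζ - 1) ^ p w t` are unramified with trivial
residue extension** at every valuation subring `W` over `V`. -/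
theorem kummer_unramified_wild652 (V : ValuationSubring K) (W : ValuationSubring Ω)
    (hVW : ∀ a ∈ V, algebraMap K Ω a ∈ W)
    (w : K) (hwV : w ∈ V) (hw0 : w ≠ 0) (hwW : (algebraMap K Ω w)⁻¹ ∉ W)
    (hVgen : ∀ a ∈ V, a⁻¹ ∉ V → a * w⁻¹ ∈ V)
    (hdisc : ∀ c : K, ∃ k : ℕ, w ^ k * c ∈ V)
    (p : ℕ) (hp : p.Prime) (ζ : K) (hζ : IsPrimitiveRoot ζ p)
    (t : K) (ht : t ∈ V) (z : Ω)
    (hz : z ^ p = algebraMap K Ω (1 + (ζ - 1) ^ p * w * t))
    (hgen : ∀ b : Ω, b ∈ Algebra.adjoin K ({z} : Set Ω)) :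
    (∀ b ∈ W, b⁻¹ ∉ W → b * (algebraMap K Ω w)⁻¹ ∈ W) ∧
    (∀ b ∈ W, ∃ a ∈ V, (b - algebraMap K Ω a) * (algebraMap K Ω w)⁻¹ ∈ W) := by
  classical
  have : NeZero p := ⟨hp.ne_zero⟩
  set φ := algebraMap K Ω with hφ
  set v := W.valuation with hv
  have hφinj : Function.Injective φ := (algebraMap K Ω).injective
  have hφw0 : φ w ≠ 0 := fun h => hw0 (hφinj (by rw [h, map_zero]))
  have hvV : ∀ a ∈ V, v (φ a) ≤ 1 := fun a ha => (W.valuation_le_one_iff _).mpr (hVW a ha)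
  have hvw : v (φ w) < 1 := valuation_lt_one_of_inv_notMem W hwW
  have hvw0 : v (φ w) ≠ 0 := (Valuation.ne_zero_iff _).mpr hφw0
  have hunitV : ∀ a ∈ V, a⁻¹ ∈ V → a ≠ 0 → v (φ a) = 1 := by
    intro a ha hai ha0
    have h1 := hvV a ha
    have h2 := hvV _ hai
    rw [map_inv₀, map_inv₀] at h2
    have hpos : 0 < v (φ a) := by
      rw [pos_iff_ne_zero]
      exact (Valuation.ne_zero_iff _).mpr (fun h => ha0 (hφinj (by rw [h, map_zero])))
    exact le_antisymm h1 ((inv_le_one₀ hpos).mp h2)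
  -- the root of unity
  set lam : K := ζ - 1 with hlam
  have hlam0 : lam ≠ 0 := hζ.sub_one_ne_zero hp.one_lt
  have hζ' : IsPrimitiveRoot (φ ζ) p := hζ.map_of_injective hφinj
  have hφlam : φ lam = φ ζ - 1 := by rw [hlam, map_sub, map_one]
  have hφlam0 : φ lam ≠ 0 := fun h => hlam0 (hφinj (by rw [h, map_zero]))
  have hvlam0 : v (φ lam) ≠ 0 := (Valuation.ne_zero_iff _).mpr hφlam0
  have hvlampos : 0 < v (φ lam) := pos_iff_ne_zero.mpr hvlam0
  have hVζ : V.valuation ζ = 1 := by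
    have h1 : V.valuation ζ ^ p = 1 := by rw [← map_pow, hζ.pow_eq_one, map_one]
    exact eq_one_of_pow_eq_one₀ hp.ne_zero h1
  have hζV : ζ ∈ V := (V.valuation_le_one_iff _).mp hVζ.le
  have hlamV : lam ∈ V := V.sub_mem hζV V.one_mem
  have hpowV : ∀ i : ℕ, ζ ^ i ∈ V := fun i => pow_mem hζV i
  -- the product formula
  have hprod : z ^ p - 1 = ∏ i ∈ Finset.range p, (z - φ ζ ^ i) :=
    pow_sub_one_eq_prod_range652 hp.pos hζ' z
  have hzp1 : z ^ p - 1 = φ lam ^ p * φ w * φ t := by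
    rw [hz, map_add, map_one, add_sub_cancel_left, map_mul, map_mul, map_pow]
  have hvwt : v (φ w) * v (φ t) < 1 := by
    calc v (φ w) * v (φ t) ≤ v (φ w) * 1 := by gcongr; exact hvV t ht
      _ = v (φ w) := mul_one _
      _ < 1 := hvw
  -- exactly one factor is small
  obtain ⟨j₀, hj₀, hzj⟩ : ∃ j ∈ Finset.range p, v (z - φ ζ ^ j) < v (φ lam) := by
    by_contra hcon
    have hall : ∀ i ∈ Finset.range p, v (φ lam) ≤ v (z - φ ζ ^ i) := by
      intro i hi
      exact not_lt.mp fun h => hcon ⟨i, hi, h⟩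
    have h1 : v (φ lam) ^ p ≤ v (z ^ p - 1) := by
      rw [hprod, map_prod]
      calc v (φ lam) ^ p = ∏ _i ∈ Finset.range p, v (φ lam) := by
            rw [Finset.prod_const, Finset.card_range]
        _ ≤ ∏ i ∈ Finset.range p, v (z - φ ζ ^ i) := Finset.prod_le_prod' hall
    have h2 : v (z ^ p - 1) < v (φ lam) ^ p := by
      rw [hzp1, map_mul, map_mul, map_pow, mul_assoc]
      calc v (φ lam) ^ p * (v (φ w) * v (φ t)) < v (φ lam) ^ p * 1 := by
            exact mul_lt_mul_of_pos_left hvwt (pow_pos hvlampos p)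
        _ = v (φ lam) ^ p := mul_one _
    exact absurd h1 (not_le.mpr h2)
  have hj₀p : j₀ < p := Finset.mem_range.1 hj₀
  -- the units `cᵢ = (ζ ^ j₀ - ζ ^ i) / λ` of `V`
  set c : ℕ → K := fun i => (ζ ^ j₀ - ζ ^ i) * lam⁻¹ with hc
  have hcval : ∀ i ∈ (Finset.range p).erase j₀, V.valuation (c i) = 1 := by
    intro i hi
    have hi' := Finset.mem_erase.1 hi
    have hip : i < p := Finset.mem_range.1 hi'.2
    have h1 : V.valuation (ζ ^ j₀ - ζ ^ i) = V.valuation (ζ - 1) :=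
      val_pow_sub_pow_eq652 V.valuation hp hζ hj₀p hip (Ne.symm hi'.1)
    have hl0 : V.valuation lam ≠ 0 := (Valuation.ne_zero_iff _).mpr hlam0
    rw [hc]
    simp only
    rw [map_mul, map_inv₀, h1, ← hlam, mul_inv_cancel₀ hl0]
  have hcV : ∀ i ∈ (Finset.range p).erase j₀, c i ∈ V := fun i hi =>
    (V.valuation_le_one_iff _).mp (hcval i hi).le
  have hc0 : ∀ i ∈ (Finset.range p).erase j₀, c i ≠ 0 := by
    intro i hi h0
    have := hcval i hi
    rw [h0, map_zero] at this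
    exact zero_ne_one this
  have hcinvV : ∀ i ∈ (Finset.range p).erase j₀, (c i)⁻¹ ∈ V := by
    intro i hi
    rw [← V.valuation_le_one_iff, map_inv₀, hcval i hi, inv_one]
  set cc : K := ∏ i ∈ (Finset.range p).erase j₀, c i with hcc
  have hccV : cc ∈ V := V.prod_mem hcV
  have hcc0 : cc ≠ 0 := Finset.prod_ne_zero_iff.2 hc0
  have hccinvV : cc⁻¹ ∈ V := by
    rw [hcc, ← Finset.prod_inv_distrib]
    exact V.prod_mem hcinvV
  -- the coordinate `s`
  set s : Ω := (z - φ ζ ^ j₀) * (φ lam * φ w)⁻¹ with hs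
  have hzs : z - φ ζ ^ j₀ = φ lam * φ w * s := by
    rw [hs, mul_comm (z - φ ζ ^ j₀), ← mul_assoc,
      mul_inv_cancel₀ (mul_ne_zero hφlam0 hφw0), one_mul]
  have hfac : ∀ i ∈ (Finset.range p).erase j₀,
      z - φ ζ ^ i = φ lam * (φ (c i) + φ w * s) := by
    intro i _
    have h1 : φ lam * φ (c i) = φ ζ ^ j₀ - φ ζ ^ i := by
      rw [hc]
      simp only
      rw [← map_mul, mul_comm, mul_assoc, inv_mul_cancel₀ hlam0, mul_one, map_sub, map_pow,
        map_pow]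
    have h2 : z = φ ζ ^ j₀ + φ lam * φ w * s := by rw [← hzs]; ring
    rw [mul_add, h1]
    conv_lhs => rw [h2]
    ring
  set U : Ω := ∏ i ∈ (Finset.range p).erase j₀, (φ (c i) + φ w * s) with hU
  have hsU : s * U = φ t := by
    have h1 : z ^ p - 1 = (z - φ ζ ^ j₀) * ∏ i ∈ (Finset.range p).erase j₀, (z - φ ζ ^ i) := by
      rw [hprod]
      exact (Finset.mul_prod_erase _ (fun i => z - φ ζ ^ i) hj₀).symm
    have h2 : ∏ i ∈ (Finset.range p).erase j₀, (z - φ ζ ^ i) = φ lam ^ (p - 1) * U := by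
      rw [Finset.prod_congr rfl hfac, Finset.prod_mul_distrib, Finset.prod_const,
        Finset.card_erase_of_mem hj₀, Finset.card_range]
    rw [h2, hzs, hzp1] at h1
    have hp1 : φ lam ^ p = φ lam ^ (p - 1) * φ lam := by
      conv_lhs => rw [← Nat.sub_add_cancel hp.one_le, pow_succ]
    rw [hp1] at h1
    have hne : φ lam ^ (p - 1) * φ lam * φ w ≠ 0 :=
      mul_ne_zero (mul_ne_zero (pow_ne_zero _ hφlam0) hφlam0) hφw0
    apply mul_left_cancel₀ hne
    rw [h1]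
    ring
  -- valuations of the factors
  have hvfac : ∀ i ∈ (Finset.range p).erase j₀, v (φ (c i) + φ w * s) = 1 := by
    intro i hi
    have hi' := Finset.mem_erase.1 hi
    have hip : i < p := Finset.mem_range.1 hi'.2
    have h1 : v (φ ζ ^ j₀ - φ ζ ^ i) = v (φ lam) := by
      rw [hφlam]
      exact val_pow_sub_pow_eq652 v hp hζ' hj₀p hip (Ne.symm hi'.1)
    have h2 : v (z - φ ζ ^ i) = v (φ lam) := by
      have e : z - φ ζ ^ i = (z - φ ζ ^ j₀) + (φ ζ ^ j₀ - φ ζ ^ i) := by ring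
      rw [e, Valuation.map_add_eq_of_lt_right _ (by rw [h1]; exact hzj), h1]
    have h3 := hfac i hi
    rw [h3, map_mul] at h2
    have h4 : v (φ lam) * v (φ (c i) + φ w * s) = v (φ lam) * 1 := by rw [h2, mul_one]
    exact mul_left_cancel₀ hvlam0 h4
  have hvU : v U = 1 := by
    rw [hU, map_prod]
    exact Finset.prod_eq_one hvfac
  have hU0 : U ≠ 0 := by
    intro h
    rw [h, map_zero] at hvU
    exact zero_ne_one hvU
  have hsW : v s ≤ 1 := by
    have : s = φ t * U⁻¹ := by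
      rw [← hsU, mul_assoc, mul_inv_cancel₀ hU0, mul_one]
    rw [this, map_mul, map_inv₀, hvU, inv_one, mul_one]
    exact hvV t ht
  -- the subring `A = V[s]`
  set A : Subring Ω := Subring.closure (φ '' (V : Set K) ∪ {s}) with hA
  have hVA : ∀ a ∈ V, φ a ∈ A := fun a ha =>
    Subring.subset_closure (Or.inl ⟨a, ha, rfl⟩)
  have hsA : s ∈ A := Subring.subset_closure (Or.inr rfl)
  have hwA : φ w ∈ A := hVA w hwV
  have hwsA : φ w * s ∈ A := A.mul_mem hwA hsA
  obtain ⟨c₀, hc₀A, hUc⟩ := exists_prod_add_eq652 A ((Finset.range p).erase j₀)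
    (fun i => φ (c i)) (fun i hi => hVA _ (hcV i hi)) (φ w * s) hwsA
  have hUcc : U = φ cc + φ w * s * c₀ := by
    rw [hU, hUc, hcc, map_prod]
  have hzA : z ∈ A := by
    have h2 : z = φ (ζ ^ j₀) + φ lam * φ w * s := by rw [map_pow, ← hzs]; ring
    rw [h2]
    exact A.add_mem (hVA _ (hpowV j₀)) (A.mul_mem (A.mul_mem (hVA _ hlamV) hwA) hsA)
  have hAW : ∀ a ∈ A, v a ≤ 1 := by
    intro a ha
    have hle : A ≤ W.toSubring := by
      rw [hA, Subring.closure_le]
      rintro x (⟨a, ha, rfl⟩ | hx)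
      · exact hVW a ha
      · rw [Set.mem_singleton_iff] at hx
        rw [hx]
        exact (W.valuation_le_one_iff _).mp hsW
    exact (W.valuation_le_one_iff _).mpr (hle ha)
  -- `A = V + w A`
  have hdec : ∀ a ∈ A, ∃ a₀ ∈ V, ∃ a' ∈ A, a = φ a₀ + φ w * a' := by
    intro a ha
    induction ha using Subring.closure_induction with
    | mem x hx =>
      rcases hx with ⟨a₀, ha₀, rfl⟩ | hx
      · exact ⟨a₀, ha₀, 0, A.zero_mem, by simp⟩
      · rw [Set.mem_singleton_iff] at hx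
        subst hx
        refine ⟨t * cc⁻¹, mul_mem ht hccinvV, -(φ (cc⁻¹) * s * s * c₀),
          A.neg_mem (A.mul_mem (A.mul_mem (A.mul_mem (hVA _ hccinvV) hsA) hsA) hc₀A), ?_⟩
        have hmm : φ cc * φ (cc⁻¹) = 1 := by
          rw [← map_mul, mul_inv_cancel₀ hcc0, map_one]
        have h5 : (φ cc + φ w * s * c₀) * s = φ t := by rw [← hUcc, mul_comm]; exact hsU
        rw [map_mul]
        linear_combination (φ (cc⁻¹)) * h5 - s * hmm
    | zero => exact ⟨0, zero_mem V, 0, A.zero_mem, by simp⟩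
    | one => exact ⟨1, one_mem V, 0, A.zero_mem, by simp⟩
    | add x y hx hy ihx ihy =>
      obtain ⟨x₀, hx₀, x', hx', rfl⟩ := ihx
      obtain ⟨y₀, hy₀, y', hy', rfl⟩ := ihy
      exact ⟨x₀ + y₀, add_mem hx₀ hy₀, x' + y', A.add_mem hx' hy', by rw [map_add]; ring⟩
    | neg x hx ihx =>
      obtain ⟨x₀, hx₀, x', hx', rfl⟩ := ihx
      exact ⟨-x₀, neg_mem hx₀, -x', A.neg_mem hx', by rw [map_neg]; ring⟩
    | mul x y hx hy ihx ihy =>
      obtain ⟨x₀, hx₀, x', hx', rfl⟩ := ihx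
      obtain ⟨y₀, hy₀, y', hy', rfl⟩ := ihy
      refine ⟨x₀ * y₀, mul_mem hx₀ hy₀, φ x₀ * y' + x' * φ y₀ + φ w * x' * y', ?_, ?_⟩
      · exact A.add_mem (A.add_mem (A.mul_mem (hVA _ hx₀) hy') (A.mul_mem hx' (hVA _ hy₀)))
          (A.mul_mem (A.mul_mem hwA hx') hy')
      · rw [map_mul]; ring
  -- non-units of `A` are divisible by `w`
  have hdiv : ∀ a ∈ A, v a < 1 → ∃ a' ∈ A, a = φ w * a' := by
    intro a ha hva
    obtain ⟨a₀, ha₀, a', ha', rfl⟩ := hdec a ha
    have h1 : v (φ w * a') < 1 := by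
      rw [map_mul]
      calc v (φ w) * v a' ≤ v (φ w) * 1 := by gcongr; exact hAW a' ha'
        _ = v (φ w) := mul_one _
        _ < 1 := hvw
    have h2 : v (φ a₀) < 1 := by
      have : φ a₀ = (φ a₀ + φ w * a') - φ w * a' := by ring
      rw [this]
      exact Valuation.map_sub_lt _ hva h1
    have h3 : a₀ * w⁻¹ ∈ V := by
      by_cases h0 : a₀ = 0
      · rw [h0, zero_mul]; exact zero_mem V
      refine hVgen a₀ ha₀ fun hinv => ?_
      have := hunitV a₀ ha₀ hinv h0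
      rw [this] at h2
      exact lt_irrefl _ h2
    refine ⟨φ (a₀ * w⁻¹) + a', A.add_mem (hVA _ h3) ha', ?_⟩
    rw [mul_add, ← map_mul, mul_comm a₀, ← mul_assoc, mul_inv_cancel₀ hw0, one_mul]
  -- `Ω = A[1/w]`
  have hloc : ∀ b : Ω, ∃ k : ℕ, φ w ^ k * b ∈ A := by
    intro b
    induction hgen b using Algebra.adjoin_induction with
    | mem x hx =>
      rw [Set.mem_singleton_iff] at hx
      rw [hx]
      refine ⟨0, ?_⟩
      rw [pow_zero, one_mul]
      exact hzA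
    | algebraMap c =>
      obtain ⟨k, hk⟩ := hdisc c
      refine ⟨k, ?_⟩
      rw [← hφ, ← map_pow, ← map_mul]
      exact hVA _ hk
    | add x y _ _ ihx ihy =>
      obtain ⟨k₁, h₁⟩ := ihx
      obtain ⟨k₂, h₂⟩ := ihy
      refine ⟨k₁ + k₂, ?_⟩
      have : φ w ^ (k₁ + k₂) * (x + y) = φ w ^ k₂ * (φ w ^ k₁ * x) + φ w ^ k₁ * (φ w ^ k₂ * y) := by
        rw [pow_add]; ring
      rw [this]
      exact A.add_mem (A.mul_mem (A.pow_mem hwA _) h₁) (A.mul_mem (A.pow_mem hwA _) h₂)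
    | mul x y _ _ ihx ihy =>
      obtain ⟨k₁, h₁⟩ := ihx
      obtain ⟨k₂, h₂⟩ := ihy
      refine ⟨k₁ + k₂, ?_⟩
      have : φ w ^ (k₁ + k₂) * (x * y) = (φ w ^ k₁ * x) * (φ w ^ k₂ * y) := by
        rw [pow_add]; ring
      rw [this]
      exact A.mul_mem h₁ h₂
  -- `W ⊆ A`
  have hWA : ∀ b : Ω, v b ≤ 1 → b ∈ A := by
    intro b hb
    have hex := hloc b
    have hk : Nat.find hex = 0 := by
      by_contra hne
      obtain ⟨k, hk⟩ : ∃ k, Nat.find hex = k + 1 := ⟨Nat.find hex - 1, by omega⟩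
      have hmem := Nat.find_spec hex
      rw [hk] at hmem
      have hlt : v (φ w ^ (k + 1) * b) < 1 := by
        rw [map_mul, map_pow, pow_succ]
        calc v (φ w) ^ k * v (φ w) * v b ≤ 1 * v (φ w) * 1 := by
              gcongr
              exact pow_le_one₀ zero_le hvw.le
          _ = v (φ w) := by rw [one_mul, mul_one]
          _ < 1 := hvw
      obtain ⟨a', ha', h'⟩ := hdiv _ hmem hlt
      have : φ w ^ k * b = a' := by
        have h6 : φ w * (φ w ^ k * b) = φ w * a' := by rw [← h', pow_succ]; ring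
        exact mul_left_cancel₀ hφw0 h6
      have hmin := Nat.find_min hex (m := k) (by omega)
      exact hmin (this ▸ ha')
    have := Nat.find_spec hex
    rwa [hk, pow_zero, one_mul] at this
  refine ⟨fun b hbW hbinv => ?_, fun b hbW => ?_⟩
  · have hb1 : v b < 1 := valuation_lt_one_of_inv_notMem W hbinv
    obtain ⟨a', ha', h'⟩ := hdiv b (hWA b hb1.le) hb1
    rw [h', mul_comm (φ w), mul_assoc, mul_inv_cancel₀ hφw0, mul_one]
    exact (W.valuation_le_one_iff _).mp (hAW a' ha')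
  · obtain ⟨a₀, ha₀, a', ha', h'⟩ := hdec b (hWA b ((W.valuation_le_one_iff _).mpr hbW))
    refine ⟨a₀, ha₀, ?_⟩
    rw [h', add_sub_cancel_left, mul_comm (φ w), mul_assoc, mul_inv_cancel₀ hφw0, mul_one]
    exact (W.valuation_le_one_iff _).mp (hAW a' ha')

end WildUnram

end Fermat.Agent.Ribet.H652
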