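/-
# RIBET row 38, WALL-p, (S2) / W-ALGP, leaf HCONST-p (helper652)

`theorem hconstPLeaf : H495.AlgP.HConstPLeaf` (VERBATIM, `Ribet/H495/GluePSpec.lean`):
for `v ∈ 1 + (ζ - 1) ^ p w V₁` (`V₁ = B_{p₁}`) the constants do not grow in the residue fields of the
Kummer algebra `F[X]/(X ^ p - v)`.

Proof: wild port of `A2.H552.hconst_of_henselian` (helper552).  `V₁ = Alg.H729.compVal` is a
valuation subring with uniformiser `w`; every valuation subring `W ⊇ V₁` of a residue field
`Ω = F[z]`, `z ^ p = v`, is unramified over `V₁` (`kummer_unramified_wild652`); a valuation subring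
unramified over the Henselian base `R` (algebraically closed residue field) has no new constants
(`A2.H552.mem_range_of_isAlgebraic_of_valuationSubring`).
-/
import Fermat.Agent.Ribet.H495.GluePSpec
import Fermat.Agent.Ribet.H652.HConstPCore
import Fermat.Agent.A2.H552.Const
import Fermat.Agent.A2.Alg.H729.CompVal
import Fermat.Agent.A2.Alg.H34.Base
import Mathlib.RingTheory.Valuation.LocalSubring

set_option autoImplicit false
set_option linter.style.haveILetI false
set_option linter.unusedSectionVars false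

namespace Fermat.Agent.Ribet.H652

open Polynomial IsLocalRing Fermat.Agent.A2 Fermat.Agent.A2.Alg Fermat.Agent.A2.H552
open Fermat.Agent.Ribet.H495.AlgP

section Cover

variable {R E K Ω : Type*} [CommRing R] [IsDomain R] [IsDiscreteValuationRing R]
  [HenselianLocalRing R] [IsAlgClosed (ResidueField R)]
  [Field E] [CharZero E] [Algebra R E] [IsFractionRing R E]
  [Field K] [Algebra R K] [Field Ω] [Algebra K Ω] [Algebra E Ω] [Algebra R Ω]
  [IsScalarTower R E Ω] [IsScalarTower R K Ω]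

/-- **COVER-CONST, wild case.**  A Kummer cover `Ω = K[z]`, `z ^ p = 1 + (ζ - 1) ^ p w t`, of a
field `K` carrying an unramified discrete valuation ring `V ⊇ R` has no new constants. -/
theorem kummer_no_new_constants_wild652 (w : R) (hw : Irreducible w) (V : ValuationSubring K)
    (hRV : ∀ r : R, algebraMap R K r ∈ V)
    (hwV : (algebraMap R K w)⁻¹ ∉ V)
    (hVgen : ∀ a ∈ V, a⁻¹ ∉ V → a * (algebraMap R K w)⁻¹ ∈ V)
    (hdisc : ∀ c : K, ∃ k : ℕ, algebraMap R K w ^ k * c ∈ V)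
    (p : ℕ) (hp : p.Prime) (ζ : R) (hζ : IsPrimitiveRoot ζ p)
    (t : K) (ht : t ∈ V) (z : Ω)
    (hz : z ^ p = algebraMap K Ω (1 + algebraMap R K ((ζ - 1) ^ p * w) * t))
    (hgen : ∀ b : Ω, b ∈ Algebra.adjoin K ({z} : Set Ω))
    (y : Ω) (hy : IsAlgebraic E y) : y ∈ (algebraMap E Ω).range := by
  have hinjRE : Function.Injective (algebraMap R E) := IsFractionRing.injective R E
  have hinjRΩ : Function.Injective (algebraMap R Ω) := by
    rw [IsScalarTower.algebraMap_eq R E Ω]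
    exact (algebraMap E Ω).injective.comp hinjRE
  have hinjRK : Function.Injective (algebraMap R K) := by
    intro a b h
    apply hinjRΩ
    rw [IsScalarTower.algebraMap_apply R K Ω, IsScalarTower.algebraMap_apply R K Ω, h]
  have hwK0 : algebraMap R K w ≠ 0 := fun h => hw.ne_zero (hinjRK (by rw [h, map_zero]))
  have hζK : IsPrimitiveRoot (algebraMap R K ζ) p := hζ.map_of_injective hinjRK
  -- a valuation subring of `Ω` dominating `V`
  obtain ⟨W, hle, hloc⟩ := (LocalSubring.range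
    ((algebraMap K Ω).comp V.subtype)).exists_le_valuationSubring
  have hVW : ∀ a ∈ V, algebraMap K Ω a ∈ W := fun a ha =>
    hle ⟨⟨a, ha⟩, rfl⟩
  have hwW : (algebraMap K Ω (algebraMap R K w))⁻¹ ∉ W := by
    intro hmem
    set f := (algebraMap K Ω).comp V.subtype with hf
    have hwr : algebraMap K Ω (algebraMap R K w) ∈ (LocalSubring.range f).toSubring :=
      ⟨⟨algebraMap R K w, hRV w⟩, rfl⟩
    have hu : IsUnit (Subring.inclusion hle ⟨_, hwr⟩) := by
      refine IsUnit.of_mul_eq_one ⟨(algebraMap K Ω (algebraMap R K w))⁻¹, hmem⟩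
        (Subtype.ext ?_)
      change algebraMap K Ω (algebraMap R K w) * (algebraMap K Ω (algebraMap R K w))⁻¹ = 1
      exact mul_inv_cancel₀ (fun h => hwK0 ((algebraMap K Ω).injective (by rw [h, map_zero])))
    have hu' := hloc.map_nonunit _ hu
    obtain ⟨c, hc⟩ := hu'.exists_right_inv
    obtain ⟨⟨b, hb⟩, hbc⟩ := c.2
    have h1 : algebraMap K Ω (algebraMap R K w) * algebraMap K Ω b = 1 := by
      have := congrArg Subtype.val hc
      simp only [Subring.coe_mul, Subring.coe_one] at this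
      rw [← this, ← hbc]
      rfl
    have h2 : algebraMap R K w * b = 1 := by
      apply (algebraMap K Ω).injective
      rw [map_mul, h1, map_one]
    apply hwV
    rw [inv_eq_of_mul_eq_one_right h2]
    exact hb
  have hz' : z ^ p = algebraMap K Ω
      (1 + (algebraMap R K ζ - 1) ^ p * algebraMap R K w * t) := by
    rw [hz]
    congr 2
    rw [map_mul, map_pow, map_sub, map_one]
  have hunr := (kummer_unramified_wild652 V W hVW (algebraMap R K w) (hRV w) hwK0 hwW hVgen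
    hdisc p hp (algebraMap R K ζ) hζK t ht z hz' hgen).1
  have hRW : ∀ r : R, algebraMap R Ω r ∈ W := fun r => by
    rw [IsScalarTower.algebraMap_apply R K Ω]
    exact hVW _ (hRV r)
  rw [← IsScalarTower.algebraMap_apply R K Ω] at hwW hunr
  exact mem_range_of_isAlgebraic_of_valuationSubring w hw W hRW hwW hunr y hy

variable (E) in
include E in
/-- **COVER-CONST, wild case, integral form**: `R` is integrally closed in the Kummer cover. -/
theorem kummer_isIntegral_mem_range_wild652 (w : R) (hw : Irreducible w)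
    (V : ValuationSubring K)
    (hRV : ∀ r : R, algebraMap R K r ∈ V)
    (hwV : (algebraMap R K w)⁻¹ ∉ V)
    (hVgen : ∀ a ∈ V, a⁻¹ ∉ V → a * (algebraMap R K w)⁻¹ ∈ V)
    (hdisc : ∀ c : K, ∃ k : ℕ, algebraMap R K w ^ k * c ∈ V)
    (p : ℕ) (hp : p.Prime) (ζ : R) (hζ : IsPrimitiveRoot ζ p)
    (t : K) (ht : t ∈ V) (z : Ω)
    (hz : z ^ p = algebraMap K Ω (1 + algebraMap R K ((ζ - 1) ^ p * w) * t))
    (hgen : ∀ b : Ω, b ∈ Algebra.adjoin K ({z} : Set Ω))
    (y : Ω) (hy : IsIntegral R y) : y ∈ Set.range (algebraMap R Ω) := by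
  have hyalg : IsAlgebraic E y :=
    (IsFractionRing.isAlgebraic_iff R E Ω).mp hy.isAlgebraic
  obtain ⟨e, rfl⟩ := kummer_no_new_constants_wild652 (E := E) w hw V hRV hwV hVgen hdisc p hp ζ
    hζ t ht z hz hgen y hyalg
  have he : IsIntegral R e :=
    (isIntegral_algebraMap_iff (algebraMap E Ω).injective).mp hy
  obtain ⟨r, rfl⟩ := (IsIntegrallyClosed.isIntegral_iff (R := R) (K := E)).mp he
  exact ⟨r, IsScalarTower.algebraMap_apply R E Ω r⟩

end Cover

section HConst

variable {R E F : Type*} [CommRing R] [IsDomain R] [IsDiscreteValuationRing R]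
  [HenselianLocalRing R] [IsAlgClosed (ResidueField R)]
  [Field E] [CharZero E] [Algebra R E] [IsFractionRing R E]
  [Field F] [Algebra R F] [Algebra E F] [IsScalarTower R E F]

variable (E) in
include E in
/-- **`hconst` over a Henselian base, wild case.** -/
theorem hconstP_of_henselian652 (w : R) (hw : Irreducible w) (V : ValuationSubring F)
    (hRV : ∀ r : R, algebraMap R F r ∈ V)
    (hwV : (algebraMap R F w)⁻¹ ∉ V)
    (hVgen : ∀ a ∈ V, a⁻¹ ∉ V → a * (algebraMap R F w)⁻¹ ∈ V)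
    (hdisc : ∀ c : F, ∃ k : ℕ, algebraMap R F w ^ k * c ∈ V)
    (p : ℕ) (hp : p.Prime) (ζ : R) (hζ : IsPrimitiveRoot ζ p)
    (t : F) (ht : t ∈ V) (u : F) (hu : u = 1 + algebraMap R F ((ζ - 1) ^ p * w) * t) :
    ∀ 𝔫 : Ideal (AdjoinRoot (X ^ p - C u)), 𝔫.IsMaximal →
      ∀ y : AdjoinRoot (X ^ p - C u) ⧸ 𝔫, IsIntegral R y →
        y ∈ Set.range (algebraMap R (AdjoinRoot (X ^ p - C u) ⧸ 𝔫)) := by
  intro 𝔫 h𝔫 y hy
  let _ : Field (AdjoinRoot (X ^ p - C u) ⧸ 𝔫) := Ideal.Quotient.field 𝔫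
  have : IsScalarTower R E (AdjoinRoot (X ^ p - C u) ⧸ 𝔫) :=
    IsScalarTower.of_algebraMap_eq fun r => by
      change Ideal.Quotient.mk 𝔫 (AdjoinRoot.of _ (algebraMap R F r)) =
        Ideal.Quotient.mk 𝔫 (AdjoinRoot.of _ (algebraMap E F (algebraMap R E r)))
      rw [← IsScalarTower.algebraMap_apply R E F]
  have : IsScalarTower R F (AdjoinRoot (X ^ p - C u) ⧸ 𝔫) :=
    IsScalarTower.of_algebraMap_eq fun r => rfl
  set z : AdjoinRoot (X ^ p - C u) ⧸ 𝔫 := Ideal.Quotient.mk 𝔫 (AdjoinRoot.root _) with hzdef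
  have hz : z ^ p = algebraMap F (AdjoinRoot (X ^ p - C u) ⧸ 𝔫)
      (1 + algebraMap R F ((ζ - 1) ^ p * w) * t) := by
    rw [← hu]
    have h := AdjoinRoot.eval₂_root (X ^ p - C u : F[X])
    rw [eval₂_sub, eval₂_pow, eval₂_X, eval₂_C, sub_eq_zero] at h
    rw [hzdef, ← map_pow, h]
    rfl
  have hgen : ∀ b : AdjoinRoot (X ^ p - C u) ⧸ 𝔫,
      b ∈ Algebra.adjoin F ({z} : Set (AdjoinRoot (X ^ p - C u) ⧸ 𝔫)) := by
    intro b
    obtain ⟨a, rfl⟩ := Ideal.Quotient.mk_surjective b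
    have ha : a ∈ Algebra.adjoin F ({AdjoinRoot.root (X ^ p - C u)} : Set (AdjoinRoot _)) := by
      rw [AdjoinRoot.adjoinRoot_eq_top]
      exact Algebra.mem_top
    have := Algebra.adjoin_image F (Ideal.Quotient.mkₐ F 𝔫)
      ({AdjoinRoot.root (X ^ p - C u)} : Set (AdjoinRoot _))
    rw [Set.image_singleton] at this
    rw [hzdef]
    change Ideal.Quotient.mkₐ F 𝔫 a ∈ Algebra.adjoin F {Ideal.Quotient.mkₐ F 𝔫 (AdjoinRoot.root _)}
    rw [this]
    exact ⟨a, ha, rfl⟩
  exact kummer_isIntegral_mem_range_wild652 E w hw V hRV hwV hVgen hdisc p hp ζ hζ t ht z hz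
    hgen y hy

end HConst

section Leaf

variable {R F : Type*} [CommRing R] [Field F] [Algebra R F]

/-- `u ∈ 1 + r B_p` gives `u = 1 + r t` with `t ∈ B_p = compVal`. -/
theorem exists_mem_compVal_of_locOneR652 (w : R) (B : Subalgebra R F) [IsNoetherianRing B]
    [IsFractionRing B F] (p q : Ideal B) (hp : p.IsPrime)
    (hpq : p ⊓ q = Ideal.span {algebraMap R B w}) (hqp : ¬ q ≤ p)
    (hw0 : algebraMap R F w ≠ 0) (r : R) {u : F} (hu : LocOneR B p r u) :
    ∃ t ∈ H729.compVal w B p q hp hpq hqp hw0, u = 1 + algebraMap R F r * t := by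
  obtain ⟨a, b, hb, hab, e⟩ := hu
  rw [Ideal.mem_span_singleton'] at hab
  obtain ⟨a', ha'⟩ := hab
  have hb0 : (b : F) ≠ 0 := H729.coe_ne_zero_of_not_mem hb
  have ha'F : (a' : F) * algebraMap R F r = (a : F) - (b : F) :=
    congrArg (fun t : B => (t : F)) ha'
  refine ⟨(a' : F) * ((b : F))⁻¹, ⟨a', b, hb, ?_⟩, ?_⟩
  · field_simp
  · have h2 : u = (a : F) * (b : F)⁻¹ := by
      rw [← e]; field_simp
    rw [h2]
    have h3 : algebraMap R F r * ((a' : F) * ((b : F))⁻¹) =
        ((a' : F) * algebraMap R F r) * ((b : F))⁻¹ := by ring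
    rw [h3, ha'F]
    field_simp
    ring

end Leaf

/-- **HCONST-p** (`H495.AlgP.HConstPLeaf`, verbatim). -/
theorem hconstPLeaf : HConstPLeaf := by
  intro R E F _ _ _ _ _ _ _ _ _ _ _ _ _ p hp _ _ ζ hζ w x B hB c hc v _ hv
  obtain ⟨hN, -, hFr⟩ := H34.chart_instances' w x B hB
  haveI := hN
  haveI := hFr
  have hw0 : algebraMap R F w ≠ 0 := by
    intro h
    exact hB.hw.ne_zero (H34.algebraMap_RF_injective E (by rw [h, map_zero]))
  obtain ⟨t, ht, hut⟩ := exists_mem_compVal_of_locOneR652 w B c.p₁ c.p₂ c.prime₁ c.inf_eq hc.2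
    hw0 ((ζ - 1) ^ p * w) hv
  exact hconstP_of_henselian652 E w hB.hw
    (H729.compVal w B c.p₁ c.p₂ c.prime₁ c.inf_eq hc.2 hw0)
    (H729.algebraMap_mem_compVal w B c.p₁ c.p₂ c.prime₁ c.inf_eq hc.2 hw0)
    (H729.inv_not_mem_compVal w B c.p₁ c.p₂ c.prime₁ c.inf_eq hc.2 hw0)
    (H729.mul_inv_mem_compVal w B c.p₁ c.p₂ c.prime₁ c.inf_eq hc.2 hw0)
    (H729.exists_pow_mul_mem_compVal w B c.p₁ c.p₂ c.prime₁ c.inf_eq hc.2 hw0)
    p hp ζ hζ t ht v hut

end Fermat.Agent.Ribet.H652
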