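import Fermat.Agent.Ribet.H652.HorDescCore
import Fermat.Agent.A2.Spec

/-!
# RIBET row 38, WALL-p, (S4) CORE-OUT, WILD half: piece HOR-DESC of `WildFrame`  (helper652)

The field `hf'_div : DivisibleDiv E₁ p f'` of `H704.CoreOut.WildFrame`:

`f₂ ∈ K₂` (Kummer generator over the wild level `E₂`) has `p ∣ div f₂` on every discrete valuation
ring of `K₂ / E₂`, and `f₂ = lc · f' · b ^ p` in `L₂` with `f' ∈ L₁` (output of PER), `lc` a
nonzero constant, `b ≠ 0`.  `L₂ = L₁(algebraic constants)` is a CONSTANT-FIELD extension of `L₁`,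
hence unramified at every discrete valuation ring `V ⊇ E₁` of `L₁`
(`S18.H845.exists_dvr_extension`).  So `p ∣ ord_V f'`:  **`DivisibleDiv E₁ p f'`**.

* `horDesc652`          : general form (`L₂` generated over `L₁` by elements algebraic over `E₁`,
                          the constants of `E₂` algebraic over `E₁`);
* `horDesc_adjoin652`   : `L₂ = L₁(u)`, `u` a root of a nonzero polynomial over `E₁`; no instance
                          `Algebra E₁ L₂` needed; constants of `E₂` algebraic over `ℤ`;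
* `horDesc_kummer652`   : `L₂ = L₁(u)`, `u ^ n ∈ E₁`, `0 < n` (the wild level `E₂ = E₁(u)`).

Mathlib + `S18.H845.ConstExt` + `A2.Spec` (definition of `DivisibleDiv`) only.
-/

set_option autoImplicit false
set_option linter.style.haveILetI false
set_option linter.unusedSectionVars false

namespace Fermat.Agent.Ribet.H652

open Fermat.Agent.S18.H845 Fermat.Agent.A2

section HorDesc

variable {E₁ L₁ E₂ K₂ L₂ : Type*} [Field E₁] [Field L₁] [Algebra E₁ L₁]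
  [Field E₂] [Field K₂] [Algebra E₂ K₂] [Field L₂] [Algebra K₂ L₂] [Algebra L₁ L₂]

/-- **HOR-DESC, general form.** -/
theorem horDesc652 [Algebra E₁ L₂] [IsScalarTower E₁ L₁ L₂] [PerfectField E₁]
    (halg : Algebra.IsAlgebraic K₂ L₂)
    (hgen : IntermediateField.adjoin L₁ {α : L₂ | IsAlgebraic E₁ α} = ⊤)
    (hE₂ : ∀ e : E₂, IsAlgebraic E₁ (algebraMap K₂ L₂ (algebraMap E₂ K₂ e)))
    (p : ℕ) (f₂ : K₂) (hdiv : DivisibleDiv E₂ p f₂)
    (f' : L₁) (hf' : f' ≠ 0) (lc : E₂) (hlc : lc ≠ 0) (b : L₂) (hb : b ≠ 0)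
    (hf₂ : algebraMap K₂ L₂ f₂ =
      algebraMap K₂ L₂ (algebraMap E₂ K₂ lc) * algebraMap L₁ L₂ f' * b ^ p) :
    DivisibleDiv E₁ p f' := by
  intro V hV hEV
  haveI := hV
  haveI := halg
  obtain ⟨B, hcomap, -, hconst, hirr, hval⟩ := exists_dvr_extension (E := E₁) (L := L₂) V hEV hgen
  obtain ⟨π, hπ⟩ := IsDiscreteValuationRing.exists_irreducible V
  set φ := algebraMap L₁ L₂ with hφ
  set ψ := algebraMap K₂ L₂ with hψ
  set v := B.valuation with hv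
  have hφ0 : ∀ x : L₁, x ≠ 0 → φ x ≠ 0 := fun x hx h =>
    hx ((algebraMap L₁ L₂).injective (h.trans (map_zero _).symm))
  have hψ0 : ∀ x : K₂, x ≠ 0 → ψ x ≠ 0 := fun x hx h =>
    hx ((algebraMap K₂ L₂).injective (h.trans (map_zero _).symm))
  have hι0 : ∀ x : E₂, x ≠ 0 → algebraMap E₂ K₂ x ≠ 0 := fun x hx h =>
    hx ((algebraMap E₂ K₂).injective (h.trans (map_zero _).symm))
  set ϖ : L₂ := φ (π : L₁) with hϖdef
  have hπ0 : (π : L₁) ≠ 0 := fun h => hπ.ne_zero (Subtype.ext h)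
  have hϖ0 : ϖ ≠ 0 := hφ0 _ hπ0
  have hϖ : v ϖ < 1 := by
    obtain ⟨hmem, hirrB⟩ := hirr π hπ
    have hnu : ¬ IsUnit (⟨ϖ, hmem⟩ : B) := hirrB.not_isUnit
    have hle : v ϖ ≤ 1 := (B.valuation_le_one_iff _).mpr hmem
    rcases hle.lt_or_eq with h | h
    · exact h
    · exact absurd ((B.valuation_eq_one_iff ⟨ϖ, hmem⟩).mpr h) hnu
  have hg0 : v ϖ ≠ 0 := (Valuation.ne_zero_iff _).mpr hϖ0
  -- the restriction of `B` to `K₂`
  have hB₂ : IsDiscreteValuationRing (B.comap (algebraMap K₂ L₂)) :=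
    isDiscreteValuationRing_comap652 (K := K₂) B hϖ0 hϖ (hval π hπ)
  have hE₂B : ∀ e : E₂, algebraMap E₂ K₂ e ∈ B.comap (algebraMap K₂ L₂) := by
    intro e
    rw [ValuationSubring.mem_comap]
    exact hconst _ (hE₂ e)
  obtain ⟨h₂, u₂, hh₂, hu₂, hu₂i, hfe⟩ := hdiv (B.comap (algebraMap K₂ L₂)) hB₂ hE₂B
  -- units
  have hu₂0 : u₂ ≠ 0 := by
    rintro rfl
    rw [zero_mul] at hfe
    rw [hfe, map_zero] at hf₂
    have h0 : ψ (algebraMap E₂ K₂ lc) * φ f' * b ^ p ≠ 0 :=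
      mul_ne_zero (mul_ne_zero (hψ0 _ (hι0 _ hlc)) (hφ0 _ hf')) (pow_ne_zero _ hb)
    exact h0 hf₂.symm
  have hvu₂ : v (ψ u₂) = 1 := by
    refine val_eq_one_of_le652 v (hψ0 _ hu₂0) ((B.valuation_le_one_iff _).mpr hu₂) ?_
    rw [← map_inv₀]
    exact (B.valuation_le_one_iff _).mpr hu₂i
  have hvlc : v (ψ (algebraMap E₂ K₂ lc)) = 1 := by
    refine val_eq_one_of_le652 v (hψ0 _ (hι0 _ hlc))
      ((B.valuation_le_one_iff _).mpr (hE₂B lc)) ?_
    have h1 : (ψ (algebraMap E₂ K₂ lc))⁻¹ = ψ (algebraMap E₂ K₂ lc⁻¹) := by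
      rw [map_inv₀, map_inv₀]
    rw [h1]
    exact (B.valuation_le_one_iff _).mpr (hE₂B lc⁻¹)
  -- the value of `f'`
  have hh₂' : ψ h₂ ≠ 0 := hψ0 _ hh₂
  obtain ⟨k, hk⟩ := hval π hπ (ψ h₂ * b⁻¹) (mul_ne_zero hh₂' (inv_ne_zero hb))
  have hvb0 : v b ≠ 0 := (Valuation.ne_zero_iff _).mpr hb
  have hvf' : v (φ f') = (v ϖ ^ k) ^ p := by
    have h1 : v (ψ f₂) = v (φ f') * v b ^ p := by
      rw [hf₂, map_mul, map_mul, hvlc, one_mul, map_pow]
    have h2 : v (ψ f₂) = v (ψ h₂) ^ p := by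
      rw [hfe, map_mul, map_mul, hvu₂, one_mul, map_pow, map_pow]
    have h3 : v (ψ h₂) = v ϖ ^ k * v b := by
      have : v (ψ h₂ * b⁻¹) = v ϖ ^ k := hk
      rw [map_mul, map_inv₀] at this
      rw [← this, mul_assoc, inv_mul_cancel₀ hvb0, mul_one]
    have h4 : v (φ f') * v b ^ p = (v ϖ ^ k) ^ p * v b ^ p := by
      rw [← h1, h2, h3, mul_pow]
    exact mul_right_cancel₀ (pow_ne_zero _ hvb0) h4
  -- the witnesses
  set h : L₁ := (π : L₁) ^ k with hh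
  have hh0 : h ≠ 0 := zpow_ne_zero _ hπ0
  set u : L₁ := f' * (h ^ p)⁻¹ with hu
  have hu0 : u ≠ 0 := mul_ne_zero hf' (inv_ne_zero (pow_ne_zero _ hh0))
  have hvu : v (φ u) = 1 := by
    rw [hu, map_mul, map_mul, map_inv₀, map_inv₀, map_pow, map_pow, hh, map_zpow₀, map_zpow₀,
      hvf']
    exact mul_inv_cancel₀ (pow_ne_zero _ (zpow_ne_zero _ hg0))
  have huV : u ∈ V := by
    rw [← hcomap, ValuationSubring.mem_comap]
    exact (B.valuation_le_one_iff _).mp hvu.le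
  have huiV : u⁻¹ ∈ V := by
    rw [← hcomap, ValuationSubring.mem_comap, map_inv₀]
    refine (B.valuation_le_one_iff _).mp ?_
    rw [map_inv₀, hvu, inv_one]
  refine ⟨h, u, hh0, huV, huiV, ?_⟩
  rw [hu, mul_assoc, inv_mul_cancel₀ (pow_ne_zero _ hh0), mul_one]

/-- **HOR-DESC, one generator.**  `L₂ = L₁(u)` with `u` a root of a nonzero polynomial over `E₁`
(characteristic `0`); the constants of `E₂` are algebraic numbers.  No instance `Algebra E₁ L₂`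
is needed. -/
theorem horDesc_adjoin652 [CharZero E₁]
    (halg : Algebra.IsAlgebraic K₂ L₂)
    (u : L₂) (P : Polynomial E₁) (hP : P ≠ 0)
    (hPu : Polynomial.eval₂ ((algebraMap L₁ L₂).comp (algebraMap E₁ L₁)) u P = 0)
    (hadj : IntermediateField.adjoin L₁ ({u} : Set L₂) = ⊤)
    (hE₂ : ∀ e : E₂, IsAlgebraic ℤ e)
    (p : ℕ) (f₂ : K₂) (hdiv : DivisibleDiv E₂ p f₂)
    (f' : L₁) (hf' : f' ≠ 0) (lc : E₂) (hlc : lc ≠ 0) (b : L₂) (hb : b ≠ 0)
    (hf₂ : algebraMap K₂ L₂ f₂ =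
      algebraMap K₂ L₂ (algebraMap E₂ K₂ lc) * algebraMap L₁ L₂ f' * b ^ p) :
    DivisibleDiv E₁ p f' := by
  letI : Algebra E₁ L₂ := ((algebraMap L₁ L₂).comp (algebraMap E₁ L₁)).toAlgebra
  haveI : IsScalarTower E₁ L₁ L₂ := IsScalarTower.of_algebraMap_eq (fun _ => rfl)
  have hu : IsAlgebraic E₁ u := ⟨P, hP, hPu⟩
  have hgen : IntermediateField.adjoin L₁ {α : L₂ | IsAlgebraic E₁ α} = ⊤ := by
    rw [eq_top_iff, ← hadj]
    exact IntermediateField.adjoin.mono L₁ _ _ (Set.singleton_subset_iff.mpr hu)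
  have hE₂' : ∀ e : E₂, IsAlgebraic E₁ (algebraMap K₂ L₂ (algebraMap E₂ K₂ e)) := by
    intro e
    obtain ⟨Q, hQ, hQe⟩ := hE₂ e
    have h1 : IsAlgebraic ℤ (algebraMap K₂ L₂ (algebraMap E₂ K₂ e)) := by
      refine ⟨Q, hQ, ?_⟩
      have h2 : Polynomial.aeval (algebraMap K₂ L₂ (algebraMap E₂ K₂ e)) Q =
          ((algebraMap K₂ L₂).comp (algebraMap E₂ K₂)) (Polynomial.aeval e Q) := by
        rw [Polynomial.aeval_def, Polynomial.aeval_def, Polynomial.hom_eval₂]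
        congr 1
        exact Subsingleton.elim _ _
      rw [h2, hQe, map_zero]
    exact h1.extendScalars (FaithfulSMul.algebraMap_injective ℤ E₁)
  exact horDesc652 halg hgen hE₂' p f₂ hdiv f' hf' lc hlc b hb hf₂

/-- **HOR-DESC, Kummer form** (the wild level `E₂ = E₁(u)`, `u ^ n ∈ E₁`). -/
theorem horDesc_kummer652 [CharZero E₁]
    (halg : Algebra.IsAlgebraic K₂ L₂)
    (u : L₂) (n : ℕ) (hn : 0 < n) (c : E₁)
    (hu : u ^ n = algebraMap L₁ L₂ (algebraMap E₁ L₁ c))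
    (hadj : IntermediateField.adjoin L₁ ({u} : Set L₂) = ⊤)
    (hE₂ : ∀ e : E₂, IsAlgebraic ℤ e)
    (p : ℕ) (f₂ : K₂) (hdiv : DivisibleDiv E₂ p f₂)
    (f' : L₁) (hf' : f' ≠ 0) (lc : E₂) (hlc : lc ≠ 0) (b : L₂) (hb : b ≠ 0)
    (hf₂ : algebraMap K₂ L₂ f₂ =
      algebraMap K₂ L₂ (algebraMap E₂ K₂ lc) * algebraMap L₁ L₂ f' * b ^ p) :
    DivisibleDiv E₁ p f' := by
  refine horDesc_adjoin652 halg u (Polynomial.X ^ n - Polynomial.C c)
    (Polynomial.X_pow_sub_C_ne_zero hn c) ?_ hadj hE₂ p f₂ hdiv f' hf' lc hlc b hb hf₂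
  rw [Polynomial.eval₂_sub, Polynomial.eval₂_pow, Polynomial.eval₂_X, Polynomial.eval₂_C, hu]
  simp

end HorDesc

end Fermat.Agent.Ribet.H652
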