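import Fermat.Agent.S18.H845.ConstExt

/-!
# Restriction of a discrete valuation ring to a subfield  (helper652)

`B` a valuation subring of `L` whose value group is generated by the value of `ϖ`
(`v ϖ < 1`), `K ⊆ L` with `L / K` algebraic.  Then `B ∩ K` is a discrete valuation ring.

Mathlib + `S18.H845` (`isDiscreteValuationRing_of_val`, `mem_of_monic_root`) only.
-/

set_option autoImplicit false
set_option linter.style.haveILetI false
set_option linter.unusedSectionVars false

namespace Fermat.Agent.Ribet.H652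

open Fermat.Agent.S18.H845

section Comap

variable {K L : Type*} [Field K] [Field L] [Algebra K L]

/-- A valuation with `v x ≤ 1` and `v x⁻¹ ≤ 1` has `v x = 1`. -/
theorem val_eq_one_of_le652 {Γ : Type*} [LinearOrderedCommGroupWithZero Γ]
    (v : Valuation L Γ) {x : L} (hx0 : x ≠ 0) (h1 : v x ≤ 1) (h2 : v x⁻¹ ≤ 1) : v x = 1 := by
  have hpos : 0 < v x := zero_lt_iff.mpr ((Valuation.ne_zero_iff _).mpr hx0)
  rw [map_inv₀] at h2
  exact le_antisymm h1 ((inv_le_one₀ hpos).mp h2)

/-- Membership in the comap in terms of the valuation of `B`. -/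
theorem comap_val_le_one_iff652 (B : ValuationSubring L) (x : K) :
    (B.comap (algebraMap K L)).valuation x ≤ 1 ↔ B.valuation (algebraMap K L x) ≤ 1 := by
  rw [ValuationSubring.valuation_le_one_iff, ValuationSubring.valuation_le_one_iff,
    ValuationSubring.mem_comap]

/-- Units of the comap in terms of the valuation of `B`. -/
theorem comap_val_eq_one652 (B : ValuationSubring L) {x : K}
    (hx : B.valuation (algebraMap K L x) = 1) :
    (B.comap (algebraMap K L)).valuation x = 1 := by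
  have hx0 : x ≠ 0 := by
    rintro rfl
    rw [map_zero, map_zero] at hx
    exact zero_ne_one hx
  refine val_eq_one_of_le652 _ hx0 ((comap_val_le_one_iff652 B x).mpr hx.le) ?_
  rw [comap_val_le_one_iff652, map_inv₀, map_inv₀, hx, inv_one]

/-- Non-units of the comap in terms of the valuation of `B`. -/
theorem comap_val_lt_one652 (B : ValuationSubring L) {x : K}
    (hx : B.valuation (algebraMap K L x) < 1) :
    (B.comap (algebraMap K L)).valuation x < 1 := by
  have h1 : (B.comap (algebraMap K L)).valuation x ≤ 1 :=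
    (comap_val_le_one_iff652 B x).mpr hx.le
  rcases h1.lt_or_eq with h | h
  · exact h
  · exfalso
    have hx0 : x ≠ 0 := by
      rintro rfl
      rw [map_zero] at h
      exact zero_ne_one h
    have h2 : (B.comap (algebraMap K L)).valuation x⁻¹ ≤ 1 := by
      rw [map_inv₀, h, inv_one]
    rw [comap_val_le_one_iff652, map_inv₀, map_inv₀] at h2
    have hpos : 0 < B.valuation (algebraMap K L x) :=
      zero_lt_iff.mpr ((Valuation.ne_zero_iff _).mpr
        (fun h0 => hx0 ((algebraMap K L).injective (by rw [h0, map_zero]))))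
    have h3 : 1 ≤ B.valuation (algebraMap K L x) := (inv_le_one₀ hpos).mp h2
    exact absurd hx (not_lt.mpr h3)

variable (B : ValuationSubring L) {ϖ : L} (hϖ0 : ϖ ≠ 0) (hϖ : B.valuation ϖ < 1)
  (hval : ∀ f : L, f ≠ 0 → ∃ k : ℤ, B.valuation f = B.valuation ϖ ^ k)

include hϖ0 hϖ in
/-- The valuation of `B` is not trivial on `K` when `L / K` is algebraic. -/
theorem exists_val_lt_one652 [Algebra.IsAlgebraic K L] :
    ∃ y : K, y ≠ 0 ∧ B.valuation (algebraMap K L y) < 1 := by
  by_contra hcon0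
  have hcon : ∀ y : K, y ≠ 0 → 1 ≤ B.valuation (algebraMap K L y) :=
    fun y hy => not_lt.mp (fun h => hcon0 ⟨y, hy, h⟩)
  have hall : ∀ y : K, algebraMap K L y ∈ B := by
    intro y
    by_cases hy : y = 0
    · rw [hy, map_zero]; exact B.zero_mem
    · have h1 := hcon y⁻¹ (inv_ne_zero hy)
      rw [map_inv₀, map_inv₀] at h1
      have hpos : 0 < B.valuation (algebraMap K L y) :=
        zero_lt_iff.mpr ((Valuation.ne_zero_iff _).mpr
          (fun h0 => hy ((algebraMap K L).injective (by rw [h0, map_zero]))))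
      have h2 : B.valuation (algebraMap K L y) ≤ 1 := (one_le_inv₀ hpos).mp h1
      exact (B.valuation_le_one_iff _).mp h2
  have hint : IsIntegral K ϖ⁻¹ := (Algebra.IsAlgebraic.isAlgebraic (R := K) ϖ⁻¹).isIntegral
  have hmem : ϖ⁻¹ ∈ B := mem_of_monic_root B hall (minpoly.monic hint) (minpoly.aeval K ϖ⁻¹)
  have h3 : B.valuation ϖ⁻¹ ≤ 1 := (B.valuation_le_one_iff _).mpr hmem
  rw [map_inv₀] at h3
  have hpos : 0 < B.valuation ϖ := zero_lt_iff.mpr ((Valuation.ne_zero_iff _).mpr hϖ0)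
  exact absurd hϖ (not_lt.mpr ((inv_le_one₀ hpos).mp h3))

include hϖ0 hϖ hval in
/-- **The restriction of a discrete valuation ring to a subfield `K` with `L / K` algebraic is a
discrete valuation ring.** -/
theorem isDiscreteValuationRing_comap652 [Algebra.IsAlgebraic K L] :
    IsDiscreteValuationRing (B.comap (algebraMap K L)) := by
  classical
  set φ := algebraMap K L with hφ
  set v := B.valuation with hv
  set g := v ϖ with hg
  have hg0 : 0 < g := zero_lt_iff.mpr ((Valuation.ne_zero_iff _).mpr hϖ0)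
  have hφ0 : ∀ y : K, y ≠ 0 → φ y ≠ 0 := fun y hy h0 =>
    hy ((algebraMap K L).injective (by rw [h0, map_zero]))
  -- the set of positive orders attained on `K`
  have hex : ∃ n : ℕ, 0 < n ∧ ∃ y : K, y ≠ 0 ∧ v (φ y) = g ^ n := by
    obtain ⟨y, hy0, hy⟩ := exists_val_lt_one652 (K := K) B hϖ0 hϖ
    obtain ⟨k, hk⟩ := hval (φ y) (hφ0 y hy0)
    have hk0 : 0 < k := by
      rw [hk] at hy
      have : g ^ k < g ^ (0 : ℤ) := by rwa [zpow_zero]
      exact (zpow_lt_zpow_iff_right_of_lt_one₀ hg0 hϖ).mp this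
    refine ⟨k.toNat, by omega, y, hy0, ?_⟩
    rw [hk, ← zpow_natCast, Int.toNat_of_nonneg hk0.le]
  set k₀ := Nat.find hex with hk₀
  obtain ⟨hk₀pos, ϖ', hϖ'0, hϖ'⟩ := Nat.find_spec hex
  have hmin : ∀ n : ℕ, 0 < n → n < k₀ → ∀ y : K, y ≠ 0 → v (φ y) ≠ g ^ n := by
    intro n hn hlt y hy0 hy
    exact Nat.find_min hex hlt ⟨hn, y, hy0, hy⟩
  -- every value on `K` is a power of the value of `ϖ'`
  have key : ∀ y : K, y ≠ 0 → ∃ q : ℤ, v (φ y) = v (φ ϖ') ^ q := by
    intro y hy0
    obtain ⟨k, hk⟩ := hval (φ y) (hφ0 y hy0)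
    have hk₀' : (0 : ℤ) < (k₀ : ℤ) := by exact_mod_cast hk₀pos
    set q := k / (k₀ : ℤ) with hq
    set r := k % (k₀ : ℤ) with hr
    have hr0 : 0 ≤ r := Int.emod_nonneg _ hk₀'.ne'
    have hrlt : r < k₀ := Int.emod_lt_of_pos _ hk₀'
    have hkqr : k = (k₀ : ℤ) * q + r := (Int.mul_ediv_add_emod k k₀).symm
    have hval' : v (φ (y * (ϖ' ^ q)⁻¹)) = g ^ r := by
      rw [map_mul, map_mul, map_inv₀, map_inv₀, map_zpow₀, map_zpow₀, hk, hϖ', ← zpow_natCast,
        ← zpow_mul, hkqr, zpow_add₀ hg0.ne']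
      rw [mul_comm (g ^ ((k₀ : ℤ) * q)), mul_assoc, mul_inv_cancel₀ (zpow_ne_zero _ hg0.ne'),
        mul_one]
    have hr_eq : r = 0 := by
      by_contra hne
      have hrpos : 0 < r := lt_of_le_of_ne hr0 (Ne.symm hne)
      have hy' : y * (ϖ' ^ q)⁻¹ ≠ 0 := mul_ne_zero hy0 (inv_ne_zero (zpow_ne_zero _ hϖ'0))
      refine hmin r.toNat (by omega) (by omega) _ hy' ?_
      rw [hval', ← zpow_natCast, Int.toNat_of_nonneg hr0]
    refine ⟨q, ?_⟩
    rw [hk, hϖ', ← zpow_natCast, ← zpow_mul, hkqr, hr_eq, add_zero]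
  -- transfer to the comap
  have hϖ'lt : v (φ ϖ') < 1 := by
    rw [hϖ']
    exact pow_lt_one₀ hg0.le hϖ hk₀pos.ne'
  refine isDiscreteValuationRing_of_val (B.comap (algebraMap K L)) hϖ'0
    (comap_val_lt_one652 B hϖ'lt) ?_
  intro f hf
  obtain ⟨q, hq⟩ := key f hf
  refine ⟨q, ?_⟩
  have h1 : v (φ (f * (ϖ' ^ q)⁻¹)) = 1 := by
    rw [map_mul, map_mul, map_inv₀, map_inv₀, map_zpow₀, map_zpow₀, hq]
    exact mul_inv_cancel₀ (zpow_ne_zero _ ((Valuation.ne_zero_iff _).mpr (hφ0 ϖ' hϖ'0)))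
  have h2 := comap_val_eq_one652 B h1
  rw [map_mul, map_inv₀, map_zpow₀] at h2
  have h3 : (B.comap (algebraMap K L)).valuation ϖ' ^ q ≠ 0 :=
    zpow_ne_zero _ ((Valuation.ne_zero_iff _).mpr hϖ'0)
  exact (mul_inv_eq_one₀ h3).mp h2

end Comap

end Fermat.Agent.Ribet.H652
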